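import Fermat.Agent.S58.ThmC.Defs

/-!
# S58/ThmC : the number of points of the ten normal forms over `𝔽₂` and `𝔽₃`
-/

set_option autoImplicit false

namespace Fermat.Agent.S58.ThmC

open WeierstrassCurve WeierstrassCurve.Affine

/-- **Leaf K0.** `Point ≃ WithZero {xy // Nonsingular ..}` (Mathlib `nonsingularPointEquiv`),
`equation_iff_nonsingular_of_Δ_ne_zero`, `equation_iff`, `Equiv.subtypeEquivRight`,
`Nat.card_congr`, `Nat.card_eq_fintype_card`, `Fintype.card_option` (`WithZero α = Option α`). -/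
theorem card_point_eq (ℓ : ℕ) [Fact ℓ.Prime] (W : WeierstrassCurve (ZMod ℓ)) (hΔ : W.Δ ≠ 0) :
    Nat.card W.toAffine.Point =
      Fintype.card {xy : ZMod ℓ × ZMod ℓ // xy.2 ^ 2 + W.a₁ * xy.1 * xy.2 + W.a₃ * xy.2 =
        xy.1 ^ 3 + W.a₂ * xy.1 ^ 2 + W.a₄ * xy.1 + W.a₆} + 1 := by
  have e : W.toAffine.Point ≃ Option {xy : ZMod ℓ × ZMod ℓ //
      xy.2 ^ 2 + W.a₁ * xy.1 * xy.2 + W.a₃ * xy.2 =
        xy.1 ^ 3 + W.a₂ * xy.1 ^ 2 + W.a₄ * xy.1 + W.a₆} :=
    (nonsingularPointEquiv W.toAffine).trans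
      (Equiv.optionCongr (Equiv.subtypeEquivRight (fun xy => by
        rw [← equation_iff_nonsingular_of_Δ_ne_zero hΔ, equation_iff])))
  rw [Nat.card_congr e, Nat.card_eq_fintype_card, Fintype.card_option]

/-! **Leaves K1.** `rw [card_point_eq _ _ (by decide)]` (unfold `WeierstrassCurve.Δ, b₂, ...` first
if `decide` is stuck), then `decide` / `rfl` / `simp; decide`. -/

theorem card_two_10 : Nat.card (⟨1, 0, 0, 0, 1⟩ : WeierstrassCurve (ZMod 2)).toAffine.Point = 4 := by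
  rw [card_point_eq _ _ (by decide)]
  decide

theorem card_two_11 : Nat.card (⟨1, 1, 0, 0, 1⟩ : WeierstrassCurve (ZMod 2)).toAffine.Point = 2 := by
  rw [card_point_eq _ _ (by decide)]
  decide

theorem card_two_000 :
    Nat.card (⟨0, 0, 1, 0, 0⟩ : WeierstrassCurve (ZMod 2)).toAffine.Point = 3 := by
  rw [card_point_eq _ _ (by decide)]
  decide

theorem card_two_001 :
    Nat.card (⟨0, 0, 1, 0, 1⟩ : WeierstrassCurve (ZMod 2)).toAffine.Point = 3 := by
  rw [card_point_eq _ _ (by decide)]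
  decide

theorem card_two_010 :
    Nat.card (⟨0, 0, 1, 1, 0⟩ : WeierstrassCurve (ZMod 2)).toAffine.Point = 5 := by
  rw [card_point_eq _ _ (by decide)]
  decide

theorem card_two_011 :
    Nat.card (⟨0, 0, 1, 1, 1⟩ : WeierstrassCurve (ZMod 2)).toAffine.Point = 1 := by
  rw [card_point_eq _ _ (by decide)]
  decide

theorem card_three_pp :
    Nat.card (⟨0, 1, 0, 0, 1⟩ : WeierstrassCurve (ZMod 3)).toAffine.Point = 6 := by
  rw [card_point_eq _ _ (by decide)]
  decide

theorem card_three_pm :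
    Nat.card (⟨0, 1, 0, 0, -1⟩ : WeierstrassCurve (ZMod 3)).toAffine.Point = 3 := by
  rw [card_point_eq _ _ (by decide)]
  decide

theorem card_three_mp :
    Nat.card (⟨0, -1, 0, 0, 1⟩ : WeierstrassCurve (ZMod 3)).toAffine.Point = 5 := by
  rw [card_point_eq _ _ (by decide)]
  decide

theorem card_three_mm :
    Nat.card (⟨0, -1, 0, 0, -1⟩ : WeierstrassCurve (ZMod 3)).toAffine.Point = 2 := by
  rw [card_point_eq _ _ (by decide)]
  decide

end Fermat.Agent.S58.ThmC
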