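import Fermat.Agent.S58.ThmC.Defs
import Fermat.Agent.Lib.Hasse.Glue

/-!
# S58/ThmC : Theorem C for short Weierstrass equations, `ℓ ≠ 2`
-/

set_option autoImplicit false

namespace Fermat.Agent.S58.ThmC

open WeierstrassCurve WeierstrassCurve.Affine Fermat.Agent.Lib.Hasse

/-- **Leaf T2.** PROOF: `obtain ⟨a₁, a₂, a₃, a₄, a₆⟩ := W₀`, substitute `a₁ = a₂ = a₃ = 0`
(`W₀.a₁_of_isShortNF` ...), `intro K _ _ _ φ Fr hFr P`, `letI := φ.toAlgebra`, then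
`Lib.Hasse.glue_core ℓ hℓ a₄ a₆ _ _ _ Fr hFr P` exactly as in
`Lib.Hasse.frobenius_quadratic_zmod` (`Lib/Hasse/Glue.lean`); `Pt a₄ a₆` is definitionally
`(⟨0,0,0,a₄,a₆⟩ : WeierstrassCurve _).toAffine.Point`. -/
theorem thmCFor_short {ℓ : ℕ} [Fact ℓ.Prime] (hℓ : ℓ ≠ 2) (W₀ : WeierstrassCurve (ZMod ℓ))
    [W₀.IsShortNF] (hΔ : W₀.Δ ≠ 0) : ThmCFor ℓ W₀ := by
  have h₁ := W₀.a₁_of_isShortNF
  have h₂ := W₀.a₂_of_isShortNF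
  have h₃ := W₀.a₃_of_isShortNF
  obtain ⟨a₁, a₂, a₃, a₄, a₆⟩ := W₀
  simp only at h₁ h₂ h₃
  subst h₁ h₂ h₃
  intro K _ _ _ φ Fr hFr P
  let _ := φ.toAlgebra
  refine glue_core ℓ hℓ a₄ a₆ ?_ _ ?_ Fr hFr P
  · intro h
    apply hΔ
    simp only [WeierstrassCurve.Δ, WeierstrassCurve.b₂, WeierstrassCurve.b₄, WeierstrassCurve.b₆,
      WeierstrassCurve.b₈]
    linear_combination (-1 : ZMod ℓ) * h
  · ext <;> simp [sw] <;> rfl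

end Fermat.Agent.S58.ThmC
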