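import Fermat.Agent.S58.ThmC.Generic

/-!
# S58/ThmC : characteristic `3`, `y² = x³ + a₂ x² + a₆`, `a₂ a₆ = -1` (trace `a₂`)

`3 P = 2 P + P` and `a Fr P - Fr² P` are computed explicitly, and are equal.
-/

set_option autoImplicit false

namespace Fermat.Agent.S58.ThmC

open WeierstrassCurve WeierstrassCurve.Affine Polynomial

variable (K : Type) [Field K] [DecidableEq K] [IsAlgClosed K] [CharP K 3]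

omit [DecidableEq K] [IsAlgClosed K] in
theorem three_Δ_ne_zero (a₂ a₆ : K) (h₂ : a₂ ≠ 0) (h₆ : a₆ ≠ 0) :
    (⟨0, a₂, 0, 0, a₆⟩ : WeierstrassCurve K).Δ ≠ 0 := by
  have : (⟨0, a₂, 0, 0, a₆⟩ : WeierstrassCurve K).IsCharThreeJNeZeroNF := ⟨rfl, rfl, rfl⟩
  rw [Δ_of_isCharThreeJNeZeroNF_of_char_three]
  simp [h₂, h₆]

omit [DecidableEq K] [IsAlgClosed K] in
theorem three_gen {x : K} (hx : x ^ 3 - x ≠ 0) :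
    x ≠ 0 ∧ x - 1 ≠ 0 ∧ x + 1 ≠ 0 ∧ x ^ 3 ≠ (x ^ 3) ^ 3 := by
  have hp : (3 : K) = 0 := CharP.cast_eq_zero K 3
  refine ⟨fun e => hx ?_, fun e => hx ?_, fun e => hx ?_, fun e => hx ?_⟩
  · rw [e]; ring
  · linear_combination (x ^ 2 + x) * e
  · linear_combination (x ^ 2 - x) * e
  · have : (x ^ 3 - x) ^ 3 = 0 := by linear_combination -e + (x ^ 5 - x ^ 7) * hp
    exact pow_eq_zero_iff (three_ne_zero) |>.1 this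

theorem relOn_three_pm : RelOn 3 1 (⟨0, 1, 0, 0, -1⟩ : WeierstrassCurve K) := by
  have hp : (3 : K) = 0 := CharP.cast_eq_zero K 3
  have hm1 : (X ^ 3 + X ^ 2 - 1 : K[X]).Monic := by monicity!
  have hm2 : (X ^ 3 - X : K[X]).Monic := by monicity!
  refine relOn_of_generic _ (three_Δ_ne_zero K 1 (-1) one_ne_zero (neg_ne_zero.2 one_ne_zero)) 3 1
    ((X ^ 3 + X ^ 2 - 1) * (X ^ 3 - X)) (mul_ne_zero hm1.ne_zero hm2.ne_zero)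
    fun x y h h₁ h₂ hg => ?_
  simp only [eval_mul, eval_add, eval_sub, eval_pow, eval_X, eval_one] at hg
  have hf : x ^ 3 + x ^ 2 - 1 ≠ 0 := left_ne_zero_of_mul hg
  obtain ⟨hx0, hx1, hx2, hx9⟩ := three_gen K (right_ne_zero_of_mul hg)
  have hE := (equation_iff ..).1 h.1
  simp only [zero_mul, add_zero, one_mul] at hE
  have hy : y ≠ 0 := by
    rintro rfl
    apply hf
    linear_combination -hE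
  obtain ⟨hD, eD⟩ := dbl_of_tangent _ h (L := x / y)
    (x₃ := (x + 1) * (x ^ 3 - x ^ 2 + x + 1) / y ^ 2)
    (y₃ := -(x ^ 6 - x ^ 5 + x ^ 3 + x ^ 2 + x + 1) / y ^ 3)
    (by
      simp only
      have e : 2 * y + 0 * x + 0 = -y := by linear_combination (y) * hp
      rw [e]
      exact neg_ne_zero.2 hy)
    (by simp only; field_simp; linear_combination (-x ^ 2 * y) * hp) (by simp only; field_simp; linear_combination (2 * x + 1) * hE + (x ^ 4 + x ^ 3) * hp)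
    (by simp only; field_simp; linear_combination (x ^ 3 + y ^ 2 - 1) * hE + (x ^ 5 - x ^ 3) * hp)
  obtain ⟨hT, eT⟩ := add_of_line _ hD h
    (by
      intro e
      have e' : (x - 1) ^ 3 = 0 := by
        field_simp at e
        linear_combination (-x) * hE + (-x ^ 2 + 2 * x) * hp + (-1) * e
      exact hx1 (pow_eq_zero_iff (three_ne_zero) |>.1 e'))
    (L := -(x + 1) * (x ^ 5 + x ^ 4 + x ^ 3 + x + 1) / ((x - 1) ^ 3 * y))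
    (x₃ := (x + 1) ^ 3 * (x ^ 2 - x - 1) ^ 3 / (x - 1) ^ 6)
    (y₃ := (x ^ 3 - x + 1) ^ 3 * (x ^ 3 + x ^ 2 - 1) / (x - 1) ^ 9 * y)
    (by field_simp; linear_combination (x ^ 7 + 3 * x ^ 6 + x ^ 4 + x ^ 3 * y ^ 2 + 2 * x ^ 3 - 3 * x ^ 2 * y ^ 2 + 4 * x ^ 2 + 3 * x * y ^ 2 - 2 * x - y ^ 2 + 1) * hE + (x ^ 9 - x ^ 8 + x ^ 7 - 3 * x ^ 6 - x ^ 5 - x ^ 4 - 2 * x ^ 3 - 3 * x ^ 2 - 1) * hp) (by simp only; field_simp; linear_combination (x ^ 9 - 5 * x ^ 7 - 8 * x ^ 6 + 21 * x ^ 5 + 7 * x ^ 4 - 10 * x ^ 3 - 3 * x ^ 2 - 11 * x) * hE + (-x ^ 11 - 4 * x ^ 10 - 10 * x ^ 9 + 6 * x ^ 8 + x ^ 7 - 2 * x ^ 6 - 10 * x ^ 5 - 18 * x ^ 4 + x ^ 3 + x) * hp)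
    (by simp only; field_simp; linear_combination (2 * x ^ 13 + x ^ 12 * y ^ 2 + 9 * x ^ 12 + x ^ 11 * y ^ 2 + 9 * x ^ 11 - 3 * x ^ 10 * y ^ 2 - 17 * x ^ 10 - x ^ 9 * y ^ 2 - 41 * x ^ 9 + 6 * x ^ 8 * y ^ 2 - 10 * x ^ 8 + 36 * x ^ 7 - 7 * x ^ 6 * y ^ 2 + 18 * x ^ 6 + 2 * x ^ 5 * y ^ 2 - 13 * x ^ 5 + 6 * x ^ 4 * y ^ 2 + 13 * x ^ 4 - 4 * x ^ 3 * y ^ 2 + 42 * x ^ 3 - 2 * x ^ 2 * y ^ 2 + 26 * x ^ 2 + 3 * x * y ^ 2 + 5 * x - y ^ 2 + 2) * hE + (x ^ 16 + 2 * x ^ 15 + 11 * x ^ 14 - 18 * x ^ 13 + 15 * x ^ 12 - 87 * x ^ 11 + 91 * x ^ 10 - 17 * x ^ 9 + 14 * x ^ 8 - 9 * x ^ 7 + 24 * x ^ 6 + 3 * x ^ 5 + 28 * x ^ 4 - 26 * x ^ 3 - 5 * x) * hp)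
  obtain ⟨hM, eM⟩ := neg_of_eq _ h₂ (-(y ^ 3) ^ 3) (by simp only; ring)
  obtain ⟨hS, eS⟩ := add_of_line _ h₁ hM hx9
    (L := -x ^ 3 * (x ^ 3 + x ^ 2 - 1) / (x - 1) ^ 3 * y)
    (x₃ := (x + 1) ^ 3 * (x ^ 2 - x - 1) ^ 3 / (x - 1) ^ 6)
    (y₃ := (x ^ 3 - x + 1) ^ 3 * (x ^ 3 + x ^ 2 - 1) / (x - 1) ^ 9 * y)
    (by field_simp; linear_combination (-x ^ 12 + 3 * x ^ 10 - x ^ 9 * y ^ 2 + 3 * x ^ 9 + x ^ 8 * y ^ 2 - 6 * x ^ 8 + 2 * x ^ 7 * y ^ 2 - 6 * x ^ 7 - x ^ 6 * y ^ 4 + 4 * x ^ 6 + 2 * x ^ 5 * y ^ 4 - 5 * x ^ 5 * y ^ 2 + 9 * x ^ 5 + x ^ 4 * y ^ 2 - 3 * x ^ 4 - x ^ 3 * y ^ 6 - x ^ 3 * y ^ 4 + 3 * x ^ 3 * y ^ 2 - 6 * x ^ 3 + 3 * x ^ 2 * y ^ 6 - 2 * x ^ 2 * y ^ 4 + x ^ 2 * y ^ 2 + 3 * x ^ 2 - 3 * x * y ^ 6 + 3 * x * y ^ 4 - 3 * x * y ^ 2 + y ^ 6 - y ^ 4 + y ^ 2) * hE + (x ^ 13 + 2 *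 x ^ 12 - x ^ 11 - 5 * x ^ 10 - 2 * x ^ 9 + 6 * x ^ 8 + 4 * x ^ 7 - 4 * x ^ 6 - 4 * x ^ 5 + 2 * x ^ 4 + 2 * x ^ 3 - x ^ 2) * hp) (by simp only; field_simp; linear_combination (-x ^ 12 - 2 * x ^ 11 - x ^ 10 + 2 * x ^ 9 + 2 * x ^ 8 - x ^ 6) * hE + (-3 * x ^ 14 + 4 * x ^ 13 - 6 * x ^ 12 + 7 * x ^ 11 - x ^ 10 - 3 * x ^ 8 + 3 * x ^ 7 - 7 * x ^ 6 + 7 * x ^ 5 + 7 * x ^ 4 - 8 * x ^ 3 + x ^ 2 - 4 * x) * hp)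
    (by simp only; field_simp; linear_combination (x ^ 9 * y - 9 * x ^ 8 * y + 36 * x ^ 7 * y - 84 * x ^ 6 * y + 126 * x ^ 5 * y - 126 * x ^ 4 * y + 84 * x ^ 3 * y - 36 * x ^ 2 * y + 9 * x * y - y) * hE + (-2 * x ^ 14 * y + 5 * x ^ 13 * y + 2 * x ^ 12 * y - 5 * x ^ 11 * y - 4 * x ^ 10 * y - 15 * x ^ 9 * y + 24 * x ^ 8 * y + 12 * x ^ 6 * y - 29 * x ^ 5 * y + 33 * x ^ 4 * y - 27 * x ^ 3 * y + 11 * x ^ 2 * y - 2 * x * y) * hp)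
  have e1 : Point.some _ _ h₂ - (1 : ℤ) • Point.some _ _ h₁ + ((3 : ℕ) : ℤ) • Point.some _ _ h
      = ((Point.some _ _ h + Point.some _ _ h) + Point.some _ _ h)
        - (Point.some _ _ h₁ + -Point.some _ _ h₂) := by
    rw [Nat.cast_ofNat]
    abel
  rw [e1, eD, eT, eM, eS, sub_self]

theorem relOn_three_mp : RelOn 3 (-1) (⟨0, -1, 0, 0, 1⟩ : WeierstrassCurve K) := by
  have hp : (3 : K) = 0 := CharP.cast_eq_zero K 3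
  have hm1 : (X ^ 3 - X ^ 2 + 1 : K[X]).Monic := by monicity!
  have hm2 : (X ^ 3 - X : K[X]).Monic := by monicity!
  refine relOn_of_generic _ (three_Δ_ne_zero K (-1) 1 (neg_ne_zero.2 one_ne_zero) one_ne_zero) 3
    (-1) ((X ^ 3 - X ^ 2 + 1) * (X ^ 3 - X)) (mul_ne_zero hm1.ne_zero hm2.ne_zero)
    fun x y h h₁ h₂ hg => ?_
  simp only [eval_mul, eval_add, eval_sub, eval_pow, eval_X, eval_one] at hg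
  have hf : x ^ 3 - x ^ 2 + 1 ≠ 0 := left_ne_zero_of_mul hg
  obtain ⟨hx0, hx1, hx2, hx9⟩ := three_gen K (right_ne_zero_of_mul hg)
  have hE := (equation_iff ..).1 h.1
  simp only [zero_mul, add_zero, one_mul] at hE
  have hy : y ≠ 0 := by
    rintro rfl
    apply hf
    linear_combination -hE
  obtain ⟨hD, eD⟩ := dbl_of_tangent _ h (L := -x / y)
    (x₃ := (x - 1) * (x ^ 3 + x ^ 2 + x - 1) / y ^ 2)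
    (y₃ := -(x ^ 6 + x ^ 5 - x ^ 3 + x ^ 2 - x + 1) / y ^ 3)
    (by
      simp only
      have e : 2 * y + 0 * x + 0 = -y := by linear_combination (y) * hp
      rw [e]
      exact neg_ne_zero.2 hy)
    (by simp only; field_simp; linear_combination (-x ^ 2 * y) * hp) (by simp only; field_simp; linear_combination (2 * x - 1) * hE + (x ^ 4 - x ^ 3) * hp)
    (by simp only; field_simp; linear_combination (x ^ 3 + y ^ 2 + 1) * hE + (-x ^ 5 + x ^ 3) * hp)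
  obtain ⟨hT, eT⟩ := add_of_line _ hD h
    (by
      intro e
      have e' : (x + 1) ^ 3 = 0 := by
        field_simp at e
        linear_combination (x) * hE + (x ^ 2 + 2 * x) * hp + (1) * e
      exact hx2 (pow_eq_zero_iff (three_ne_zero) |>.1 e'))
    (L := (x - 1) * (x ^ 5 - x ^ 4 + x ^ 3 + x - 1) / ((x + 1) ^ 3 * y))
    (x₃ := (x - 1) ^ 3 * (x ^ 2 + x - 1) ^ 3 / (x + 1) ^ 6)
    (y₃ := -(x ^ 3 - x ^ 2 + 1) * (x ^ 3 - x - 1) ^ 3 / (x + 1) ^ 9 * y)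
    (by field_simp; linear_combination (-x ^ 7 + 3 * x ^ 6 + x ^ 4 + x ^ 3 * y ^ 2 - 2 * x ^ 3 + 3 * x ^ 2 * y ^ 2 + 4 * x ^ 2 + 3 * x * y ^ 2 + 2 * x + y ^ 2 + 1) * hE + (x ^ 9 + x ^ 8 + x ^ 7 + 3 * x ^ 6 - x ^ 5 + x ^ 4 - 2 * x ^ 3 + 3 * x ^ 2 + 1) * hp) (by simp only; field_simp; linear_combination (x ^ 9 - 5 * x ^ 7 + 8 * x ^ 6 + 21 * x ^ 5 - 7 * x ^ 4 - 10 * x ^ 3 + 3 * x ^ 2 - 11 * x) * hE + (x ^ 11 - 4 * x ^ 10 + 10 * x ^ 9 + 6 * x ^ 8 - x ^ 7 - 2 * x ^ 6 + 10 * x ^ 5 - 18 * x ^ 4 - x ^ 3 - x) * hp)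
    (by simp only; field_simp; linear_combination (-2 * x ^ 13 - x ^ 12 * y ^ 2 + 9 * x ^ 12 + x ^ 11 * y ^ 2 - 9 * x ^ 11 + 3 * x ^ 10 * y ^ 2 - 17 * x ^ 10 - x ^ 9 * y ^ 2 + 41 * x ^ 9 - 6 * x ^ 8 * y ^ 2 - 10 * x ^ 8 - 36 * x ^ 7 + 7 * x ^ 6 * y ^ 2 + 18 * x ^ 6 + 2 * x ^ 5 * y ^ 2 + 13 * x ^ 5 - 6 * x ^ 4 * y ^ 2 + 13 * x ^ 4 - 4 * x ^ 3 * y ^ 2 - 42 * x ^ 3 + 2 * x ^ 2 * y ^ 2 + 26 * x ^ 2 + 3 * x * y ^ 2 - 5 * x + y ^ 2 + 2) * hE + (-x ^ 16 + 2 * x ^ 15 - 11 * x ^ 14 - 18 * x ^ 13 - 15 * x ^ 12 - 87 * x ^ 11 - 91 * x ^ 10 - 17 * x ^ 9 - 14 * x ^ 8 - 9 * x ^ 7 - 24 * x ^ 6 + 3 * x ^ 5 - 28 * x ^ 4 - 26 * x ^ 3 - 5 * x) * hp)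
  obtain ⟨hM₁, eM₁⟩ := neg_of_eq _ h₁ (-y ^ 3) (by simp only; ring)
  obtain ⟨hM, eM⟩ := neg_of_eq _ h₂ (-(y ^ 3) ^ 3) (by simp only; ring)
  obtain ⟨hS, eS⟩ := add_of_line _ hM₁ hM hx9
    (L := -x ^ 3 * (x ^ 3 - x ^ 2 + 1) / (x + 1) ^ 3 * y)
    (x₃ := (x - 1) ^ 3 * (x ^ 2 + x - 1) ^ 3 / (x + 1) ^ 6)
    (y₃ := -(x ^ 3 - x ^ 2 + 1) * (x ^ 3 - x - 1) ^ 3 / (x + 1) ^ 9 * y)
    (by field_simp; linear_combination (-x ^ 12 + 3 * x ^ 10 - x ^ 9 * y ^ 2 - 3 * x ^ 9 - x ^ 8 * y ^ 2 - 6 * x ^ 8 + 2 * x ^ 7 * y ^ 2 + 6 * x ^ 7 - x ^ 6 * y ^ 4 + 4 * x ^ 6 - 2 * x ^ 5 * y ^ 4 - 5 * x ^ 5 * y ^ 2 - 9 * x ^ 5 - x ^ 4 * y ^ 2 - 3 * x ^ 4 - x ^ 3 * y ^ 6 + x ^ 3 * y ^ 4 + 3 * x ^ 3 * y ^ 2 + 6 * x ^ 3 - 3 * x ^ 2 * y ^ 6 - 2 * x ^ 2 * y ^ 4 - x ^ 2 * y ^ 2 + 3 * x ^ 2 - 3 * x * y ^ 6 - 3 * x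 * y ^ 4 - 3 * x * y ^ 2 - y ^ 6 - y ^ 4 - y ^ 2) * hE + (x ^ 13 - 2 * x ^ 12 - x ^ 11 + 5 * x ^ 10 - 2 * x ^ 9 - 6 * x ^ 8 + 4 * x ^ 7 + 4 * x ^ 6 - 4 * x ^ 5 - 2 * x ^ 4 + 2 * x ^ 3 + x ^ 2) * hp) (by simp only; field_simp; linear_combination (-x ^ 12 + 2 * x ^ 11 - x ^ 10 - 2 * x ^ 9 + 2 * x ^ 8 - x ^ 6) * hE + (3 * x ^ 14 + 4 * x ^ 13 + 6 * x ^ 12 + 7 * x ^ 11 + x ^ 10 + 3 * x ^ 8 + 3 * x ^ 7 + 7 * x ^ 6 + 7 * x ^ 5 - 7 * x ^ 4 - 8 * x ^ 3 - x ^ 2 - 4 * x) * hp)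
    (by simp only; field_simp; linear_combination (-x ^ 9 * y - 9 * x ^ 8 * y - 36 * x ^ 7 * y - 84 * x ^ 6 * y - 126 * x ^ 5 * y - 126 * x ^ 4 * y - 84 * x ^ 3 * y - 36 * x ^ 2 * y - 9 * x * y - y) * hE + (2 * x ^ 14 * y + 5 * x ^ 13 * y - 2 * x ^ 12 * y - 5 * x ^ 11 * y + 4 * x ^ 10 * y - 15 * x ^ 9 * y - 24 * x ^ 8 * y - 12 * x ^ 6 * y - 29 * x ^ 5 * y - 33 * x ^ 4 * y - 27 * x ^ 3 * y - 11 * x ^ 2 * y - 2 * x * y) * hp)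
  have e1 : Point.some _ _ h₂ - (-1 : ℤ) • Point.some _ _ h₁ + ((3 : ℕ) : ℤ) • Point.some _ _ h
      = ((Point.some _ _ h + Point.some _ _ h) + Point.some _ _ h)
        - (-Point.some _ _ h₁ + -Point.some _ _ h₂) := by
    rw [Nat.cast_ofNat]
    abel
  rw [e1, eD, eT, eM₁, eM, eS, sub_self]

end Fermat.Agent.S58.ThmC
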