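import Fermat.Agent.S58.ThmC.ThreeA

/-!
# S58/ThmC : characteristic `3`, `y² = x³ + a₂ x² + a₆`, `a₂ a₆ = 1` (trace `-2 a₂`)

`3 P = 2 P + P` and `a Fr P - Fr² P` are computed explicitly, and are equal.
-/

set_option autoImplicit false

namespace Fermat.Agent.S58.ThmC

open WeierstrassCurve WeierstrassCurve.Affine Polynomial

variable (K : Type) [Field K] [DecidableEq K] [IsAlgClosed K] [CharP K 3]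

theorem relOn_three_pp : RelOn 3 (-2) (⟨0, 1, 0, 0, 1⟩ : WeierstrassCurve K) := by
  have hp : (3 : K) = 0 := CharP.cast_eq_zero K 3
  have hm1 : (X ^ 3 + X ^ 2 + 1 : K[X]).Monic := by monicity!
  have hm2 : (X ^ 3 - X : K[X]).Monic := by monicity!
  have hm3 : (X ^ 5 - X ^ 3 - X ^ 2 + X + 1 : K[X]).Monic := by monicity!
  refine relOn_of_generic _ (three_Δ_ne_zero K 1 1 one_ne_zero one_ne_zero) 3 (-2)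
    ((X ^ 3 + X ^ 2 + 1) * (X ^ 3 - X) * (X ^ 5 - X ^ 3 - X ^ 2 + X + 1))
    (mul_ne_zero (mul_ne_zero hm1.ne_zero hm2.ne_zero) hm3.ne_zero)
    fun x y h h₁ h₂ hg => ?_
  simp only [eval_mul, eval_add, eval_sub, eval_pow, eval_X, eval_one] at hg
  have hf : x ^ 3 + x ^ 2 + 1 ≠ 0 := left_ne_zero_of_mul (left_ne_zero_of_mul hg)
  have hq : x ^ 5 - x ^ 3 - x ^ 2 + x + 1 ≠ 0 := right_ne_zero_of_mul hg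
  obtain ⟨hx0, hx1, hx2, hx9⟩ := three_gen K (right_ne_zero_of_mul (left_ne_zero_of_mul hg))
  have hE := (equation_iff ..).1 h.1
  simp only [zero_mul, add_zero, one_mul] at hE
  have hy : y ≠ 0 := by
    rintro rfl
    apply hf
    linear_combination -hE
  obtain ⟨hD, eD⟩ := dbl_of_tangent _ h (L := x / y)
    (x₃ := (x ^ 4 + x - 1) / y ^ 2)
    (y₃ := -(x ^ 2 + x - 1) * (x ^ 4 + x ^ 3 - 1) / y ^ 3)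
    (by
      simp only
      have e : 2 * y + 0 * x + 0 = -y := by linear_combination (y) * hp
      rw [e]
      exact neg_ne_zero.2 hy)
    (by simp only; field_simp; linear_combination (-x ^ 2 * y) * hp) (by simp only; field_simp; linear_combination (2 * x + 1) * hE + (x ^ 4 + x ^ 3 + x) * hp)
    (by simp only; field_simp; linear_combination (x ^ 3 + y ^ 2 + 1) * hE + (x ^ 3 + x ^ 2) * hp)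
  obtain ⟨hT, eT⟩ := add_of_line _ hD h
    (by
      intro e
      have e' : (x + 1) ^ 3 = 0 := by
        field_simp at e
        linear_combination (-x) * hE + (x ^ 2 + x) * hp + (-1) * e
      exact hx2 (pow_eq_zero_iff (three_ne_zero) |>.1 e'))
    (L := -(x ^ 6 - x ^ 5 - x ^ 4 - x ^ 3 - x ^ 2 + x + 1) / ((x + 1) ^ 3 * y))
    (x₃ := (x ^ 3 - x + 1) ^ 3 / (x + 1) ^ 6)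
    (y₃ := x ^ 3 * (x ^ 2 + 1) ^ 3 * y ^ 3 / (x + 1) ^ 9)
    (by field_simp; linear_combination (x ^ 7 + 3 * x ^ 5 + 5 * x ^ 4 + x ^ 3 * y ^ 2 + 4 * x ^ 3 + 3 * x ^ 2 * y ^ 2 + 5 * x ^ 2 + 3 * x * y ^ 2 + 4 * x + y ^ 2 + 1) * hE + (x ^ 9 + 3 * x ^ 8 + 6 * x ^ 7 + 6 * x ^ 6 + 3 * x ^ 5 + 2 * x ^ 4 + x ^ 3 + x ^ 2 + 2 * x + 1) * hp) (by simp only; field_simp; linear_combination (x ^ 9 - 2 * x ^ 7 + 10 * x ^ 6 + 24 * x ^ 5 + 29 * x ^ 4 + 37 * x ^ 3 + 24 * x ^ 2 + 4 * x + 2) * hE + (x ^ 11 + 5 * x ^ 9 + 16 * x ^ 8 + 22 * x ^ 7 + 31 * x ^ 6 + 34 * x ^ 5 + 22 * x ^ 4 + 14 * x ^ 3 + 6 * x ^ 2 - x) * hp)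
    (by simp only; field_simp; linear_combination (3 * x ^ 14 + 8 * x ^ 13 + x ^ 12 * y ^ 2 + 3 * x ^ 12 + x ^ 11 * y ^ 2 + 6 * x ^ 11 + 3 * x ^ 10 * y ^ 2 + 20 * x ^ 10 + x ^ 9 * y ^ 4 + 4 * x ^ 9 * y ^ 2 + 5 * x ^ 9 + 3 * x ^ 8 * y ^ 2 + 10 * x ^ 8 + 3 * x ^ 7 * y ^ 4 + 6 * x ^ 7 * y ^ 2 + 15 * x ^ 7 + x ^ 6 * y ^ 2 - 9 * x ^ 6 + 3 * x ^ 5 * y ^ 4 + 4 * x ^ 5 * y ^ 2 + 11 * x ^ 5 + 5 * x ^ 4 + x ^ 3 * y ^ 4 + x ^ 3 * y ^ 2 - 6 * x ^ 3 + x ^ 2 + 2 * x - 1) * hE + (x ^ 17 + 4 * x ^ 16 + 5 * x ^ 15 + 3 * x ^ 14 - 7 * x ^ 13 - 50 * x ^ 12 - 103 * x ^ 11 - 115 * x ^ 10 - 81 * x ^ 9 + 12 * x ^ 8 + 93 * x ^ 7 + 90 * x ^ 6 + 55 * x ^ 5 + 9 * x ^ 4 - 17 * x ^ 3 - 13 * x ^ 2 - 4 * x - 1) * hp)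
  obtain ⟨hD₁, eD₁⟩ := dbl_of_tangent _ h₁ (L := x ^ 3 / y ^ 3)
    (x₃ := (x ^ 4 + x - 1) ^ 3 / y ^ 6)
    (y₃ := -(x ^ 2 + x - 1) ^ 3 * (x ^ 4 + x ^ 3 - 1) ^ 3 / y ^ 9)
    (by
      simp only
      have e : 2 * y ^ 3 + 0 * x ^ 3 + 0 = -y ^ 3 := by linear_combination (3 * y) * hE + (x ^ 3 * y + x ^ 2 * y + y) * hp
      rw [e]
      exact neg_ne_zero.2 (pow_ne_zero _ hy))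
    (by simp only; field_simp; linear_combination (-3 * x ^ 6 * y) * hE + (-x ^ 9 * y - x ^ 8 * y - x ^ 6 * y) * hp) (by simp only; field_simp; linear_combination (2 * x ^ 9 + 4 * x ^ 8 + 2 * x ^ 7 + 2 * x ^ 6 * y ^ 2 + 5 * x ^ 6 + 2 * x ^ 5 * y ^ 2 + 6 * x ^ 5 + x ^ 4 + 2 * x ^ 3 * y ^ 4 + 3 * x ^ 3 * y ^ 2 + 4 * x ^ 3 + x ^ 2 * y ^ 2 + 2 * x ^ 2 + y ^ 4 + y ^ 2 + 1) * hE + (x ^ 12 + 2 * x ^ 11 + 2 * x ^ 10 + 4 * x ^ 9 + 4 * x ^ 8 + 3 * x ^ 7 + 4 * x ^ 6 + 2 * x ^ 5 + 2 * x ^ 4 + 2 * x ^ 3 + x) * hp)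
    (by simp only; field_simp; linear_combination (x ^ 15 + 5 * x ^ 14 + 10 * x ^ 13 + x ^ 12 * y ^ 2 + 14 * x ^ 12 + 4 * x ^ 11 * y ^ 2 + 23 * x ^ 11 + 6 * x ^ 10 * y ^ 2 + 30 * x ^ 10 + x ^ 9 * y ^ 4 + 7 * x ^ 9 * y ^ 2 + 28 * x ^ 9 + 3 * x ^ 8 * y ^ 4 + 12 * x ^ 8 * y ^ 2 + 33 * x ^ 8 + 3 * x ^ 7 * y ^ 4 + 12 * x ^ 7 * y ^ 2 + 30 * x ^ 7 + x ^ 6 * y ^ 6 + 3 * x ^ 6 * y ^ 4 + 9 * x ^ 6 * y ^ 2 + 19 * x ^ 6 + 2 * x ^ 5 * y ^ 6 + 6 * x ^ 5 * y ^ 4 + 12 * x ^ 5 * y ^ 2 + 20 * x ^ 5 + x ^ 4 * y ^ 6 + 3 * x ^ 4 * y ^ 4 + 6 * x ^ 4 * y ^ 2 + 10 * x ^ 4 + x ^ 3 * y ^ 8 + 2 * x ^ 3 * y ^ 6 + 3 * x ^ 3 * y ^ 4 + 4 * x ^ 3 * y ^ 2 + 5 * x ^ 3 + x ^ 2 * y ^ 8 + 2 * x ^ 2 * y ^ 6 + 3 * x ^ 2 * y ^ 4 + 4 * x ^ 2 * y ^ 2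 + 5 * x ^ 2 + y ^ 10 + y ^ 8 + y ^ 6 + y ^ 4 + y ^ 2 + 1) * hE + (x ^ 16 + 7 * x ^ 15 + 19 * x ^ 14 + 30 * x ^ 13 + 31 * x ^ 12 + 23 * x ^ 11 + 20 * x ^ 10 + 21 * x ^ 9 + 24 * x ^ 8 + 27 * x ^ 7 + 16 * x ^ 6 + 7 * x ^ 5 + 4 * x ^ 4 + x ^ 3 + 2 * x ^ 2 + x) * hp)
  obtain ⟨hM₁, eM₁⟩ := neg_of_eq _ hD₁ ((x ^ 2 + x - 1) ^ 3 * (x ^ 4 + x ^ 3 - 1) ^ 3 / y ^ 9)
    (by simp only; field_simp; ring)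
  obtain ⟨hM, eM⟩ := neg_of_eq _ h₂ (-(y ^ 3) ^ 3) (by simp only; ring)
  obtain ⟨hS, eS⟩ := add_of_line _ hM₁ hM
    (by
      intro e
      have e' : ((x + 1) * (x ^ 5 - x ^ 3 - x ^ 2 + x + 1)) ^ 3 = 0 := by
        field_simp at e
        linear_combination (-x ^ 15 - 2 * x ^ 14 - x ^ 13 - x ^ 12 * y ^ 2 - 2 * x ^ 12 - x ^ 11 * y ^ 2 - 2 * x ^ 11 - x ^ 9 * y ^ 4 - x ^ 9 * y ^ 2 - x ^ 9) * hE + (-x ^ 16 - 5 * x ^ 15 - 6 * x ^ 14 + 4 * x ^ 13 + 12 * x ^ 12 + x ^ 11 - 17 * x ^ 10 - 14 * x ^ 9 + 8 * x ^ 8 + 20 * x ^ 7 + 6 * x ^ 6 - 13 * x ^ 5 - 8 * x ^ 4 + x ^ 3 + 3 * x ^ 2 + 3 * x) * hp + (-1) * e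
      exact mul_ne_zero hx2 hq (pow_eq_zero_iff (three_ne_zero) |>.1 e'))
    (L := -(x ^ 4 + x ^ 2 - 1) ^ 3 / ((x + 1) ^ 3 * y ^ 3))
    (x₃ := (x ^ 3 - x + 1) ^ 3 / (x + 1) ^ 6)
    (y₃ := x ^ 3 * (x ^ 2 + 1) ^ 3 * y ^ 3 / (x + 1) ^ 9)
    (by field_simp; linear_combination (-9 * x ^ 26 - 51 * x ^ 25 - 165 * x ^ 24 - 9 * x ^ 23 * y ^ 2 - 405 * x ^ 23 - 42 * x ^ 22 * y ^ 2 - 816 * x ^ 22 - 123 * x ^ 21 * y ^ 2 - 1448 * x ^ 21 - 9 * x ^ 20 * y ^ 4 - 273 * x ^ 20 * y ^ 2 - 2272 * x ^ 20 - 33 * x ^ 19 * y ^ 4 - 501 * x ^ 19 * y ^ 2 - 3191 * x ^ 19 - x ^ 18 * y ^ 6 - 90 * x ^ 18 * y ^ 4 - 824 * x ^ 18 * y ^ 2 - 4153 * x ^ 18 - 8 * x ^ 17 * y ^ 6 - 174 * x ^ 17 * y ^ 4 - 1175 * x ^ 17 * y ^ 2 - 4954 * x ^ 17 - 28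 * x ^ 16 * y ^ 6 - 294 * x ^ 16 * y ^ 4 - 1515 * x ^ 16 * y ^ 2 - 5451 * x ^ 16 - x ^ 15 * y ^ 8 - 61 * x ^ 15 * y ^ 6 - 440 * x ^ 15 * y ^ 4 - 1814 * x ^ 15 * y ^ 2 - 5641 * x ^ 15 - 7 * x ^ 14 * y ^ 8 - 105 * x ^ 14 * y ^ 6 - 561 * x ^ 14 * y ^ 4 - 1965 * x ^ 14 * y ^ 2 - 5422 * x ^ 14 - 21 * x ^ 13 * y ^ 8 - 161 * x ^ 13 * y ^ 6 - 660 * x ^ 13 * y ^ 4 - 1971 * x ^ 13 * y ^ 2 - 4853 * x ^ 13 - x ^ 12 * y ^ 10 - 39 * x ^ 12 * y ^ 8 - 213 * x ^ 12 * y ^ 6 - 714 * x ^ 12 * y ^ 4 - 1856 * x ^ 12 * y ^ 2 - 4104 * x ^ 12 - 6 * x ^ 11 * y ^ 10 - 59 * x ^ 11 * y ^ 8 - 243 * x ^ 11 * y ^ 6 - 690 * x ^ 11 * y ^ 4 - 1601 * x ^ 11 * y ^ 2 - 3233 * x ^ 11 - 15 * x ^ 10 * y ^ 10 - 81 * x ^ 10 * y ^ 8 - 256 * x ^ 10 * y ^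 6 - 621 * x ^ 10 * y ^ 4 - 1281 * x ^ 10 * y ^ 2 - 2366 * x ^ 10 - x ^ 9 * y ^ 12 - 23 * x ^ 9 * y ^ 10 - 93 * x ^ 9 * y ^ 8 - 245 * x ^ 9 * y ^ 6 - 521 * x ^ 9 * y ^ 4 - 967 * x ^ 9 * y ^ 2 - 1639 * x ^ 9 - 5 * x ^ 8 * y ^ 12 - 30 * x ^ 8 * y ^ 10 - 91 * x ^ 8 * y ^ 8 - 205 * x ^ 8 * y ^ 6 - 390 * x ^ 8 * y ^ 4 - 665 * x ^ 8 * y ^ 2 - 1050 * x ^ 8 - 10 * x ^ 7 * y ^ 12 - 36 * x ^ 7 * y ^ 10 - 84 * x ^ 7 * y ^ 8 - 160 * x ^ 7 * y ^ 6 - 270 * x ^ 7 * y ^ 4 - 420 * x ^ 7 * y ^ 2 - 616 * x ^ 7 - x ^ 6 * y ^ 14 - 12 * x ^ 6 * y ^ 12 - 34 * x ^ 6 * y ^ 10 - 68 * x ^ 6 * y ^ 8 - 115 * x ^ 6 * y ^ 6 - 176 * x ^ 6 * y ^ 4 - 252 * x ^ 6 * y ^ 2 - 344 * x ^ 6 - 4 * x ^ 5 * y ^ 14 - 13 * x ^ 5 * y ^ 12 - 27 * x ^ 5 * y ^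 10 - 46 * x ^ 5 * y ^ 8 - 70 * x ^ 5 * y ^ 6 - 99 * x ^ 5 * y ^ 4 - 133 * x ^ 5 * y ^ 2 - 172 * x ^ 5 - 6 * x ^ 4 * y ^ 14 - 13 * x ^ 4 * y ^ 12 - 21 * x ^ 4 * y ^ 10 - 30 * x ^ 4 * y ^ 8 - 40 * x ^ 4 * y ^ 6 - 51 * x ^ 4 * y ^ 4 - 63 * x ^ 4 * y ^ 2 - 76 * x ^ 4 - x ^ 3 * y ^ 16 - 5 * x ^ 3 * y ^ 14 - 9 * x ^ 3 * y ^ 12 - 13 * x ^ 3 * y ^ 10 - 17 * x ^ 3 * y ^ 8 - 21 * x ^ 3 * y ^ 6 - 25 * x ^ 3 * y ^ 4 - 29 * x ^ 3 * y ^ 2 - 33 * x ^ 3 - 3 * x ^ 2 * y ^ 16 - 4 * x ^ 2 * y ^ 14 - 5 * x ^ 2 * y ^ 12 - 6 * x ^ 2 * y ^ 10 - 7 * x ^ 2 * y ^ 8 - 8 * x ^ 2 * y ^ 6 - 9 * x ^ 2 * y ^ 4 - 10 * x ^ 2 * y ^ 2 - 11 * x ^ 2 - 3 * x * y ^ 16 - 3 * x * y ^ 14 - 3 * x * y ^ 12 - 3 * x * y ^ 10 - 3 * x * y ^ 8 - 3 * x * y ^ 6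 - 3 * x * y ^ 4 - 3 * x * y ^ 2 - 3 * x - y ^ 16 - y ^ 14 - y ^ 12 - y ^ 10 - y ^ 8 - y ^ 6 - y ^ 4 - y ^ 2 - 1) * hE + (-3 * x ^ 29 - 20 * x ^ 28 - 72 * x ^ 27 - 193 * x ^ 26 - 424 * x ^ 25 - 810 * x ^ 24 - 1375 * x ^ 23 - 2094 * x ^ 22 - 2932 * x ^ 21 - 3795 * x ^ 20 - 4546 * x ^ 19 - 5098 * x ^ 18 - 5351 * x ^ 17 - 5231 * x ^ 16 - 4809 * x ^ 15 - 4215 * x ^ 14 - 3482 * x ^ 13 - 2739 * x ^ 12 - 2042 * x ^ 11 - 1351 * x ^ 10 - 841 * x ^ 9 - 500 * x ^ 8 - 266 * x ^ 7 - 163 * x ^ 6 - 85 * x ^ 5 - 29 * x ^ 4 - 13 * x ^ 3 - 2 * x ^ 2 - 1) * hp) (by simp only; field_simp; linear_combination (x ^ 21 + 8 * x ^ 20 + 28 * x ^ 19 + x ^ 18 * y ^ 2 + 58 * x ^ 18 + 7 * x ^ 17 * y ^ 2 + 84 * x ^ 17 + 21 * x ^ 16 * y ^ 2 +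 98 * x ^ 16 + x ^ 15 * y ^ 4 + 36 * x ^ 15 * y ^ 2 + 100 * x ^ 15 + 6 * x ^ 14 * y ^ 4 + 41 * x ^ 14 * y ^ 2 + 86 * x ^ 14 + 15 * x ^ 13 * y ^ 4 + 36 * x ^ 13 * y ^ 2 + 56 * x ^ 13 + 20 * x ^ 12 * y ^ 4 + 28 * x ^ 12 * y ^ 2 + 34 * x ^ 12 + 15 * x ^ 11 * y ^ 4 + 17 * x ^ 11 * y ^ 2 + 33 * x ^ 11 + 6 * x ^ 10 * y ^ 4 + 3 * x ^ 10 * y ^ 2 + 31 * x ^ 10 + 2 * x ^ 9 * y ^ 4 + 3 * x ^ 9 * y ^ 2 + 53 * x ^ 9 + 13 * x ^ 8 * y ^ 2 + 97 * x ^ 8 - 3 * x ^ 7 * y ^ 4 + 15 * x ^ 7 * y ^ 2 + 94 * x ^ 7 + 4 * x ^ 6 * y ^ 4 + 35 * x ^ 6 * y ^ 2 + 92 * x ^ 6 + 9 * x ^ 5 * y ^ 4 + 49 * x ^ 5 * y ^ 2 + 96 * x ^ 5 + 9 * x ^ 4 * y ^ 4 + 30 * x ^ 4 * y ^ 2 + 53 * x ^ 4 + 22 * x ^ 3 * y ^ 4 + 27 * x ^ 3 * y ^ 2 + 32 * x ^ 3 + 18 * x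 ^ 2 * y ^ 4 + 20 * x ^ 2 * y ^ 2 + 22 * x ^ 2 + 3 * x * y ^ 4 + 3 * x * y ^ 2 + 3 * x + 2 * y ^ 4 + 2 * y ^ 2 + 2) * hE + (3 * x ^ 23 + 10 * x ^ 22 + 29 * x ^ 21 + 47 * x ^ 20 + 70 * x ^ 19 + 89 * x ^ 18 + 92 * x ^ 17 + 95 * x ^ 16 + 71 * x ^ 15 + 59 * x ^ 14 + 51 * x ^ 13 + 32 * x ^ 12 + 60 * x ^ 11 + 71 * x ^ 10 + 71 * x ^ 9 + 95 * x ^ 8 + 77 * x ^ 7 + 57 * x ^ 6 + 52 * x ^ 5 + 26 * x ^ 4 + 15 * x ^ 3 + 10 * x ^ 2) * hp)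
    (by simp only; field_simp; linear_combination (-x ^ 27 - 2 * x ^ 26 - x ^ 25 - x ^ 24 * y ^ 2 - 4 * x ^ 24 - x ^ 23 * y ^ 2 + 3 * x ^ 23 + 19 * x ^ 22 - x ^ 21 * y ^ 4 - 3 * x ^ 21 * y ^ 2 + 17 * x ^ 21 + 7 * x ^ 20 * y ^ 2 + 64 * x ^ 20 + 12 * x ^ 19 * y ^ 2 + 103 * x ^ 19 - 2 * x ^ 18 * y ^ 4 + 8 * x ^ 18 * y ^ 2 + 99 * x ^ 18 + 9 * x ^ 17 * y ^ 4 + 49 * x ^ 17 * y ^ 2 + 215 * x ^ 17 + 3 * x ^ 16 * y ^ 4 + 42 * x ^ 16 * y ^ 2 + 210 * x ^ 16 + x ^ 15 * y ^ 6 + 7 * x ^ 15 * y ^ 4 + 49 * x ^ 15 * y ^ 2 + 176 * x ^ 15 + 2 * x ^ 14 * y ^ 6 + 33 * x ^ 14 * y ^ 4 + 117 * x ^ 14 * y ^ 2 + 305 * x ^ 14 + 4 * x ^ 13 * y ^ 6 + 6 * x ^ 13 * y ^ 4 + 51 * x ^ 13 * y ^ 2 + 169 * x ^ 13 + x ^ 12 * y ^ 8 + 8 * x ^ 12 * y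 ^ 6 + 36 * x ^ 12 * y ^ 4 + 76 * x ^ 12 * y ^ 2 + 142 * x ^ 12 + x ^ 11 * y ^ 8 + 8 * x ^ 11 * y ^ 6 + 48 * x ^ 11 * y ^ 4 + 112 * x ^ 11 * y ^ 2 + 225 * x ^ 11 + 3 * x ^ 10 * y ^ 8 + 12 * x ^ 10 * y ^ 6 - 3 * x ^ 10 * y ^ 4 + 6 * x ^ 10 * y ^ 2 + 35 * x ^ 10 + x ^ 9 * y ^ 10 + 4 * x ^ 9 * y ^ 8 + 11 * x ^ 9 * y ^ 6 + 43 * x ^ 9 * y ^ 4 + 60 * x ^ 9 * y ^ 2 + 62 * x ^ 9 + 3 * x ^ 8 * y ^ 8 + 8 * x ^ 8 * y ^ 6 + 21 * x ^ 8 * y ^ 4 + 53 * x ^ 8 * y ^ 2 + 94 * x ^ 8 + 3 * x ^ 7 * y ^ 10 + 6 * x ^ 7 * y ^ 8 + 10 * x ^ 7 * y ^ 6 - 12 * x ^ 7 * y ^ 4 - 24 * x ^ 7 * y ^ 2 - 27 * x ^ 7 + x ^ 6 * y ^ 8 + 2 * x ^ 6 * y ^ 6 + 29 * x ^ 6 * y ^ 4 + 26 * x ^ 6 * y ^ 2 + 18 * x ^ 6 + 3 * x ^ 5 * y ^ 10 + 4 * x ^ 5 * y ^ 8 +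 5 * x ^ 5 * y ^ 6 + 3 * x ^ 5 * y ^ 4 + 15 * x ^ 5 * y ^ 2 + 26 * x ^ 5 - 15 * x ^ 4 * y ^ 4 - 18 * x ^ 4 * y ^ 2 - 20 * x ^ 4 + x ^ 3 * y ^ 10 + x ^ 3 * y ^ 8 + x ^ 3 * y ^ 6 + 12 * x ^ 3 * y ^ 4 + 10 * x ^ 3 * y ^ 2 + 8 * x ^ 3 + x ^ 2 * y ^ 2 + 2 * x ^ 2 - 3 * x * y ^ 4 - 3 * x * y ^ 2 - 3 * x + y ^ 4 + y ^ 2 + 1) * hE + (x ^ 29 + 5 * x ^ 28 + 12 * x ^ 27 + 29 * x ^ 26 + 75 * x ^ 25 + 183 * x ^ 24 + 414 * x ^ 23 + 687 * x ^ 22 + 680 * x ^ 21 + 152 * x ^ 20 - 837 * x ^ 19 - 1601 * x ^ 18 - 1183 * x ^ 17 + 220 * x ^ 16 + 1604 * x ^ 15 + 2005 * x ^ 14 + 983 * x ^ 13 - 328 * x ^ 12 - 828 * x ^ 11 - 624 * x ^ 10 - 40 * x ^ 9 + 319 * x ^ 8 + 215 * x ^ 7 + 55 * x ^ 6 - 22 * x ^ 5 - 44 * x ^ 4 - 11 * x ^ 3 + 3 * x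 ^ 2 + 2 * x + 1) * hp)
  have e1 : Point.some _ _ h₂ - (-2 : ℤ) • Point.some _ _ h₁ + ((3 : ℕ) : ℤ) • Point.some _ _ h
      = ((Point.some _ _ h + Point.some _ _ h) + Point.some _ _ h)
        - (-(Point.some _ _ h₁ + Point.some _ _ h₁) + -Point.some _ _ h₂) := by
    rw [Nat.cast_ofNat]
    abel
  rw [e1, eD, eT, eD₁, eM₁, eM, eS, sub_self]

theorem relOn_three_mm : RelOn 3 2 (⟨0, -1, 0, 0, -1⟩ : WeierstrassCurve K) := by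
  have hp : (3 : K) = 0 := CharP.cast_eq_zero K 3
  have hm1 : (X ^ 3 - X ^ 2 - 1 : K[X]).Monic := by monicity!
  have hm2 : (X ^ 3 - X : K[X]).Monic := by monicity!
  have hm3 : (X ^ 5 - X ^ 3 + X ^ 2 + X - 1 : K[X]).Monic := by monicity!
  refine relOn_of_generic _
    (three_Δ_ne_zero K (-1) (-1) (neg_ne_zero.2 one_ne_zero) (neg_ne_zero.2 one_ne_zero)) 3 2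
    ((X ^ 3 - X ^ 2 - 1) * (X ^ 3 - X) * (X ^ 5 - X ^ 3 + X ^ 2 + X - 1))
    (mul_ne_zero (mul_ne_zero hm1.ne_zero hm2.ne_zero) hm3.ne_zero)
    fun x y h h₁ h₂ hg => ?_
  simp only [eval_mul, eval_add, eval_sub, eval_pow, eval_X, eval_one] at hg
  have hf : x ^ 3 - x ^ 2 - 1 ≠ 0 := left_ne_zero_of_mul (left_ne_zero_of_mul hg)
  have hq : x ^ 5 - x ^ 3 + x ^ 2 + x - 1 ≠ 0 := right_ne_zero_of_mul hg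
  obtain ⟨hx0, hx1, hx2, hx9⟩ := three_gen K (right_ne_zero_of_mul (left_ne_zero_of_mul hg))
  have hE := (equation_iff ..).1 h.1
  simp only [zero_mul, add_zero] at hE
  have hy : y ≠ 0 := by
    rintro rfl
    apply hf
    linear_combination -hE
  obtain ⟨hD, eD⟩ := dbl_of_tangent _ h (L := -x / y)
    (x₃ := (x ^ 4 - x - 1) / y ^ 2)
    (y₃ := -(x ^ 2 - x - 1) * (x ^ 4 - x ^ 3 - 1) / y ^ 3)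
    (by
      simp only
      have e : 2 * y + 0 * x + 0 = -y := by linear_combination (y) * hp
      rw [e]
      exact neg_ne_zero.2 hy)
    (by simp only; field_simp; linear_combination (-x ^ 2 * y) * hp) (by simp only; field_simp; linear_combination (2 * x - 1) * hE + (x ^ 4 - x ^ 3 - x) * hp)
    (by simp only; field_simp; linear_combination (x ^ 3 + y ^ 2 - 1) * hE + (-x ^ 3 + x ^ 2) * hp)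
  obtain ⟨hT, eT⟩ := add_of_line _ hD h
    (by
      intro e
      have e' : (x - 1) ^ 3 = 0 := by
        field_simp at e
        linear_combination (x) * hE + (-x ^ 2 + x) * hp + (1) * e
      exact hx1 (pow_eq_zero_iff (three_ne_zero) |>.1 e'))
    (L := (x ^ 6 + x ^ 5 - x ^ 4 + x ^ 3 - x ^ 2 - x + 1) / ((x - 1) ^ 3 * y))
    (x₃ := (x ^ 3 - x - 1) ^ 3 / (x - 1) ^ 6)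
    (y₃ := -x ^ 3 * (x ^ 2 + 1) ^ 3 * y ^ 3 / (x - 1) ^ 9)
    (by field_simp; linear_combination (-x ^ 7 - 3 * x ^ 5 + 5 * x ^ 4 + x ^ 3 * y ^ 2 - 4 * x ^ 3 - 3 * x ^ 2 * y ^ 2 + 5 * x ^ 2 + 3 * x * y ^ 2 - 4 * x - y ^ 2 + 1) * hE + (x ^ 9 - 3 * x ^ 8 + 6 * x ^ 7 - 6 * x ^ 6 + 3 * x ^ 5 - 2 * x ^ 4 + x ^ 3 - x ^ 2 + 2 * x - 1) * hp) (by simp only; field_simp; linear_combination (x ^ 9 - 2 * x ^ 7 - 10 * x ^ 6 + 24 * x ^ 5 - 29 * x ^ 4 + 37 * x ^ 3 - 24 * x ^ 2 + 4 * x - 2) * hE + (-x ^ 11 - 5 * x ^ 9 + 16 * x ^ 8 - 22 * x ^ 7 + 31 * x ^ 6 - 34 * x ^ 5 + 22 * x ^ 4 - 14 * x ^ 3 + 6 * x ^ 2 + x) * hp)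
    (by simp only; field_simp; linear_combination (3 * x ^ 14 - 8 * x ^ 13 - x ^ 12 * y ^ 2 + 3 * x ^ 12 + x ^ 11 * y ^ 2 - 6 * x ^ 11 - 3 * x ^ 10 * y ^ 2 + 20 * x ^ 10 - x ^ 9 * y ^ 4 + 4 * x ^ 9 * y ^ 2 - 5 * x ^ 9 - 3 * x ^ 8 * y ^ 2 + 10 * x ^ 8 - 3 * x ^ 7 * y ^ 4 + 6 * x ^ 7 * y ^ 2 - 15 * x ^ 7 - x ^ 6 * y ^ 2 - 9 * x ^ 6 - 3 * x ^ 5 * y ^ 4 + 4 * x ^ 5 * y ^ 2 - 11 * x ^ 5 + 5 * x ^ 4 - x ^ 3 * y ^ 4 + x ^ 3 * y ^ 2 + 6 * x ^ 3 + x ^ 2 - 2 * x - 1) * hE + (x ^ 17 - 4 * x ^ 16 + 5 * x ^ 15 - 3 * x ^ 14 - 7 * x ^ 13 + 50 * x ^ 12 - 103 * x ^ 11 + 115 * x ^ 10 - 81 * x ^ 9 - 12 * x ^ 8 + 93 * x ^ 7 - 90 * x ^ 6 + 55 * x ^ 5 - 9 * x ^ 4 - 17 * x ^ 3 + 13 * x ^ 2 - 4 * x + 1) * hp)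
  obtain ⟨hD₁, eD₁⟩ := dbl_of_tangent _ h₁ (L := -x ^ 3 / y ^ 3)
    (x₃ := (x ^ 4 - x - 1) ^ 3 / y ^ 6)
    (y₃ := -(x ^ 2 - x - 1) ^ 3 * (x ^ 4 - x ^ 3 - 1) ^ 3 / y ^ 9)
    (by
      simp only
      have e : 2 * y ^ 3 + 0 * x ^ 3 + 0 = -y ^ 3 := by linear_combination (3 * y) * hE + (x ^ 3 * y - x ^ 2 * y - y) * hp
      rw [e]
      exact neg_ne_zero.2 (pow_ne_zero _ hy))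
    (by simp only; field_simp; linear_combination (-3 * x ^ 6 * y) * hE + (-x ^ 9 * y + x ^ 8 * y + x ^ 6 * y) * hp) (by simp only; field_simp; linear_combination (2 * x ^ 9 - 4 * x ^ 8 + 2 * x ^ 7 + 2 * x ^ 6 * y ^ 2 - 5 * x ^ 6 - 2 * x ^ 5 * y ^ 2 + 6 * x ^ 5 - x ^ 4 + 2 * x ^ 3 * y ^ 4 - 3 * x ^ 3 * y ^ 2 + 4 * x ^ 3 + x ^ 2 * y ^ 2 - 2 * x ^ 2 - y ^ 4 + y ^ 2 - 1) * hE + (x ^ 12 - 2 * x ^ 11 + 2 * x ^ 10 - 4 * x ^ 9 + 4 * x ^ 8 - 3 * x ^ 7 + 4 * x ^ 6 - 2 * x ^ 5 + 2 * x ^ 4 - 2 * x ^ 3 - x) * hp)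
    (by simp only; field_simp; linear_combination (x ^ 15 - 5 * x ^ 14 + 10 * x ^ 13 + x ^ 12 * y ^ 2 - 14 * x ^ 12 - 4 * x ^ 11 * y ^ 2 + 23 * x ^ 11 + 6 * x ^ 10 * y ^ 2 - 30 * x ^ 10 + x ^ 9 * y ^ 4 - 7 * x ^ 9 * y ^ 2 + 28 * x ^ 9 - 3 * x ^ 8 * y ^ 4 + 12 * x ^ 8 * y ^ 2 - 33 * x ^ 8 + 3 * x ^ 7 * y ^ 4 - 12 * x ^ 7 * y ^ 2 + 30 * x ^ 7 + x ^ 6 * y ^ 6 - 3 * x ^ 6 * y ^ 4 + 9 * x ^ 6 * y ^ 2 - 19 * x ^ 6 - 2 * x ^ 5 * y ^ 6 + 6 * x ^ 5 * y ^ 4 - 12 * x ^ 5 * y ^ 2 + 20 * x ^ 5 + x ^ 4 * y ^ 6 - 3 * x ^ 4 * y ^ 4 + 6 * x ^ 4 * y ^ 2 - 10 * x ^ 4 + x ^ 3 * y ^ 8 - 2 * x ^ 3 * y ^ 6 + 3 * x ^ 3 * y ^ 4 - 4 * x ^ 3 * y ^ 2 + 5 * x ^ 3 - x ^ 2 * y ^ 8 + 2 * x ^ 2 * y ^ 6 - 3 * x ^ 2 * y ^ 4 + 4 * x ^ 2 * y ^ 2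 - 5 * x ^ 2 + y ^ 10 - y ^ 8 + y ^ 6 - y ^ 4 + y ^ 2 - 1) * hE + (x ^ 16 - 7 * x ^ 15 + 19 * x ^ 14 - 30 * x ^ 13 + 31 * x ^ 12 - 23 * x ^ 11 + 20 * x ^ 10 - 21 * x ^ 9 + 24 * x ^ 8 - 27 * x ^ 7 + 16 * x ^ 6 - 7 * x ^ 5 + 4 * x ^ 4 - x ^ 3 + 2 * x ^ 2 - x) * hp)
  obtain ⟨hM, eM⟩ := neg_of_eq _ h₂ (-(y ^ 3) ^ 3) (by simp only; ring)
  obtain ⟨hS, eS⟩ := add_of_line _ hD₁ hM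
    (by
      intro e
      have e' : ((x - 1) * (x ^ 5 - x ^ 3 + x ^ 2 + x - 1)) ^ 3 = 0 := by
        field_simp at e
        linear_combination (-x ^ 15 + 2 * x ^ 14 - x ^ 13 - x ^ 12 * y ^ 2 + 2 * x ^ 12 + x ^ 11 * y ^ 2 - 2 * x ^ 11 - x ^ 9 * y ^ 4 + x ^ 9 * y ^ 2 - x ^ 9) * hE + (-x ^ 16 + 5 * x ^ 15 - 6 * x ^ 14 - 4 * x ^ 13 + 12 * x ^ 12 - x ^ 11 - 17 * x ^ 10 + 14 * x ^ 9 + 8 * x ^ 8 - 20 * x ^ 7 + 6 * x ^ 6 + 13 * x ^ 5 - 8 * x ^ 4 - x ^ 3 + 3 * x ^ 2 - 3 * x) * hp + (-1) * e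
      exact mul_ne_zero hx1 hq (pow_eq_zero_iff (three_ne_zero) |>.1 e'))
    (L := -(x ^ 4 + x ^ 2 - 1) ^ 3 / ((x - 1) ^ 3 * y ^ 3))
    (x₃ := (x ^ 3 - x - 1) ^ 3 / (x - 1) ^ 6)
    (y₃ := -x ^ 3 * (x ^ 2 + 1) ^ 3 * y ^ 3 / (x - 1) ^ 9)
    (by field_simp; linear_combination (9 * x ^ 26 - 51 * x ^ 25 + 165 * x ^ 24 + 9 * x ^ 23 * y ^ 2 - 405 * x ^ 23 - 42 * x ^ 22 * y ^ 2 + 816 * x ^ 22 + 123 * x ^ 21 * y ^ 2 - 1448 * x ^ 21 + 9 * x ^ 20 * y ^ 4 - 273 * x ^ 20 * y ^ 2 + 2272 * x ^ 20 - 33 * x ^ 19 * y ^ 4 + 501 * x ^ 19 * y ^ 2 - 3191 * x ^ 19 - x ^ 18 * y ^ 6 + 90 * x ^ 18 * y ^ 4 - 824 * x ^ 18 * y ^ 2 + 4153 * x ^ 18 + 8 * x ^ 17 * y ^ 6 - 174 * x ^ 17 * y ^ 4 + 1175 * x ^ 17 * y ^ 2 - 4954 * x ^ 17 - 28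 * x ^ 16 * y ^ 6 + 294 * x ^ 16 * y ^ 4 - 1515 * x ^ 16 * y ^ 2 + 5451 * x ^ 16 - x ^ 15 * y ^ 8 + 61 * x ^ 15 * y ^ 6 - 440 * x ^ 15 * y ^ 4 + 1814 * x ^ 15 * y ^ 2 - 5641 * x ^ 15 + 7 * x ^ 14 * y ^ 8 - 105 * x ^ 14 * y ^ 6 + 561 * x ^ 14 * y ^ 4 - 1965 * x ^ 14 * y ^ 2 + 5422 * x ^ 14 - 21 * x ^ 13 * y ^ 8 + 161 * x ^ 13 * y ^ 6 - 660 * x ^ 13 * y ^ 4 + 1971 * x ^ 13 * y ^ 2 - 4853 * x ^ 13 - x ^ 12 * y ^ 10 + 39 * x ^ 12 * y ^ 8 - 213 * x ^ 12 * y ^ 6 + 714 * x ^ 12 * y ^ 4 - 1856 * x ^ 12 * y ^ 2 + 4104 * x ^ 12 + 6 * x ^ 11 * y ^ 10 - 59 * x ^ 11 * y ^ 8 + 243 * x ^ 11 * y ^ 6 - 690 * x ^ 11 * y ^ 4 + 1601 * x ^ 11 * y ^ 2 - 3233 * x ^ 11 - 15 * x ^ 10 * y ^ 10 + 81 * x ^ 10 * y ^ 8 - 256 * x ^ 10 * y ^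 6 + 621 * x ^ 10 * y ^ 4 - 1281 * x ^ 10 * y ^ 2 + 2366 * x ^ 10 - x ^ 9 * y ^ 12 + 23 * x ^ 9 * y ^ 10 - 93 * x ^ 9 * y ^ 8 + 245 * x ^ 9 * y ^ 6 - 521 * x ^ 9 * y ^ 4 + 967 * x ^ 9 * y ^ 2 - 1639 * x ^ 9 + 5 * x ^ 8 * y ^ 12 - 30 * x ^ 8 * y ^ 10 + 91 * x ^ 8 * y ^ 8 - 205 * x ^ 8 * y ^ 6 + 390 * x ^ 8 * y ^ 4 - 665 * x ^ 8 * y ^ 2 + 1050 * x ^ 8 - 10 * x ^ 7 * y ^ 12 + 36 * x ^ 7 * y ^ 10 - 84 * x ^ 7 * y ^ 8 + 160 * x ^ 7 * y ^ 6 - 270 * x ^ 7 * y ^ 4 + 420 * x ^ 7 * y ^ 2 - 616 * x ^ 7 - x ^ 6 * y ^ 14 + 12 * x ^ 6 * y ^ 12 - 34 * x ^ 6 * y ^ 10 + 68 * x ^ 6 * y ^ 8 - 115 * x ^ 6 * y ^ 6 + 176 * x ^ 6 * y ^ 4 - 252 * x ^ 6 * y ^ 2 + 344 * x ^ 6 + 4 * x ^ 5 * y ^ 14 - 13 * x ^ 5 * y ^ 12 + 27 * x ^ 5 * y ^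 10 - 46 * x ^ 5 * y ^ 8 + 70 * x ^ 5 * y ^ 6 - 99 * x ^ 5 * y ^ 4 + 133 * x ^ 5 * y ^ 2 - 172 * x ^ 5 - 6 * x ^ 4 * y ^ 14 + 13 * x ^ 4 * y ^ 12 - 21 * x ^ 4 * y ^ 10 + 30 * x ^ 4 * y ^ 8 - 40 * x ^ 4 * y ^ 6 + 51 * x ^ 4 * y ^ 4 - 63 * x ^ 4 * y ^ 2 + 76 * x ^ 4 - x ^ 3 * y ^ 16 + 5 * x ^ 3 * y ^ 14 - 9 * x ^ 3 * y ^ 12 + 13 * x ^ 3 * y ^ 10 - 17 * x ^ 3 * y ^ 8 + 21 * x ^ 3 * y ^ 6 - 25 * x ^ 3 * y ^ 4 + 29 * x ^ 3 * y ^ 2 - 33 * x ^ 3 + 3 * x ^ 2 * y ^ 16 - 4 * x ^ 2 * y ^ 14 + 5 * x ^ 2 * y ^ 12 - 6 * x ^ 2 * y ^ 10 + 7 * x ^ 2 * y ^ 8 - 8 * x ^ 2 * y ^ 6 + 9 * x ^ 2 * y ^ 4 - 10 * x ^ 2 * y ^ 2 + 11 * x ^ 2 - 3 * x * y ^ 16 + 3 * x * y ^ 14 - 3 * x * y ^ 12 + 3 * x * y ^ 10 - 3 * x * y ^ 8 + 3 * x * y ^ 6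 - 3 * x * y ^ 4 + 3 * x * y ^ 2 - 3 * x + y ^ 16 - y ^ 14 + y ^ 12 - y ^ 10 + y ^ 8 - y ^ 6 + y ^ 4 - y ^ 2 + 1) * hE + (3 * x ^ 29 - 20 * x ^ 28 + 72 * x ^ 27 - 193 * x ^ 26 + 424 * x ^ 25 - 810 * x ^ 24 + 1375 * x ^ 23 - 2094 * x ^ 22 + 2932 * x ^ 21 - 3795 * x ^ 20 + 4546 * x ^ 19 - 5098 * x ^ 18 + 5351 * x ^ 17 - 5231 * x ^ 16 + 4809 * x ^ 15 - 4215 * x ^ 14 + 3482 * x ^ 13 - 2739 * x ^ 12 + 2042 * x ^ 11 - 1351 * x ^ 10 + 841 * x ^ 9 - 500 * x ^ 8 + 266 * x ^ 7 - 163 * x ^ 6 + 85 * x ^ 5 - 29 * x ^ 4 + 13 * x ^ 3 - 2 * x ^ 2 - 1) * hp) (by simp only; field_simp; linear_combination (x ^ 21 - 8 * x ^ 20 + 28 * x ^ 19 + x ^ 18 * y ^ 2 - 58 * x ^ 18 - 7 * x ^ 17 * y ^ 2 + 84 * x ^ 17 + 21 * x ^ 16 * y ^ 2 - 98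 * x ^ 16 + x ^ 15 * y ^ 4 - 36 * x ^ 15 * y ^ 2 + 100 * x ^ 15 - 6 * x ^ 14 * y ^ 4 + 41 * x ^ 14 * y ^ 2 - 86 * x ^ 14 + 15 * x ^ 13 * y ^ 4 - 36 * x ^ 13 * y ^ 2 + 56 * x ^ 13 - 20 * x ^ 12 * y ^ 4 + 28 * x ^ 12 * y ^ 2 - 34 * x ^ 12 + 15 * x ^ 11 * y ^ 4 - 17 * x ^ 11 * y ^ 2 + 33 * x ^ 11 - 6 * x ^ 10 * y ^ 4 + 3 * x ^ 10 * y ^ 2 - 31 * x ^ 10 + 2 * x ^ 9 * y ^ 4 - 3 * x ^ 9 * y ^ 2 + 53 * x ^ 9 + 13 * x ^ 8 * y ^ 2 - 97 * x ^ 8 - 3 * x ^ 7 * y ^ 4 - 15 * x ^ 7 * y ^ 2 + 94 * x ^ 7 - 4 * x ^ 6 * y ^ 4 + 35 * x ^ 6 * y ^ 2 - 92 * x ^ 6 + 9 * x ^ 5 * y ^ 4 - 49 * x ^ 5 * y ^ 2 + 96 * x ^ 5 - 9 * x ^ 4 * y ^ 4 + 30 * x ^ 4 * y ^ 2 - 53 * x ^ 4 + 22 * x ^ 3 * y ^ 4 - 27 * x ^ 3 * y ^ 2 + 32 * x ^ 3 - 18 * x ^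 2 * y ^ 4 + 20 * x ^ 2 * y ^ 2 - 22 * x ^ 2 + 3 * x * y ^ 4 - 3 * x * y ^ 2 + 3 * x - 2 * y ^ 4 + 2 * y ^ 2 - 2) * hE + (-3 * x ^ 23 + 10 * x ^ 22 - 29 * x ^ 21 + 47 * x ^ 20 - 70 * x ^ 19 + 89 * x ^ 18 - 92 * x ^ 17 + 95 * x ^ 16 - 71 * x ^ 15 + 59 * x ^ 14 - 51 * x ^ 13 + 32 * x ^ 12 - 60 * x ^ 11 + 71 * x ^ 10 - 71 * x ^ 9 + 95 * x ^ 8 - 77 * x ^ 7 + 57 * x ^ 6 - 52 * x ^ 5 + 26 * x ^ 4 - 15 * x ^ 3 + 10 * x ^ 2) * hp)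
    (by simp only; field_simp; linear_combination (-x ^ 27 + 2 * x ^ 26 - x ^ 25 - x ^ 24 * y ^ 2 + 4 * x ^ 24 + x ^ 23 * y ^ 2 + 3 * x ^ 23 - 19 * x ^ 22 - x ^ 21 * y ^ 4 + 3 * x ^ 21 * y ^ 2 + 17 * x ^ 21 + 7 * x ^ 20 * y ^ 2 - 64 * x ^ 20 - 12 * x ^ 19 * y ^ 2 + 103 * x ^ 19 + 2 * x ^ 18 * y ^ 4 + 8 * x ^ 18 * y ^ 2 - 99 * x ^ 18 + 9 * x ^ 17 * y ^ 4 - 49 * x ^ 17 * y ^ 2 + 215 * x ^ 17 - 3 * x ^ 16 * y ^ 4 + 42 * x ^ 16 * y ^ 2 - 210 * x ^ 16 - x ^ 15 * y ^ 6 + 7 * x ^ 15 * y ^ 4 - 49 * x ^ 15 * y ^ 2 + 176 * x ^ 15 + 2 * x ^ 14 * y ^ 6 - 33 * x ^ 14 * y ^ 4 + 117 * x ^ 14 * y ^ 2 - 305 * x ^ 14 - 4 * x ^ 13 * y ^ 6 + 6 * x ^ 13 * y ^ 4 - 51 * x ^ 13 * y ^ 2 + 169 * x ^ 13 - x ^ 12 * y ^ 8 + 8 * x ^ 12 * y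 ^ 6 - 36 * x ^ 12 * y ^ 4 + 76 * x ^ 12 * y ^ 2 - 142 * x ^ 12 + x ^ 11 * y ^ 8 - 8 * x ^ 11 * y ^ 6 + 48 * x ^ 11 * y ^ 4 - 112 * x ^ 11 * y ^ 2 + 225 * x ^ 11 - 3 * x ^ 10 * y ^ 8 + 12 * x ^ 10 * y ^ 6 + 3 * x ^ 10 * y ^ 4 + 6 * x ^ 10 * y ^ 2 - 35 * x ^ 10 - x ^ 9 * y ^ 10 + 4 * x ^ 9 * y ^ 8 - 11 * x ^ 9 * y ^ 6 + 43 * x ^ 9 * y ^ 4 - 60 * x ^ 9 * y ^ 2 + 62 * x ^ 9 - 3 * x ^ 8 * y ^ 8 + 8 * x ^ 8 * y ^ 6 - 21 * x ^ 8 * y ^ 4 + 53 * x ^ 8 * y ^ 2 - 94 * x ^ 8 - 3 * x ^ 7 * y ^ 10 + 6 * x ^ 7 * y ^ 8 - 10 * x ^ 7 * y ^ 6 - 12 * x ^ 7 * y ^ 4 + 24 * x ^ 7 * y ^ 2 - 27 * x ^ 7 - x ^ 6 * y ^ 8 + 2 * x ^ 6 * y ^ 6 - 29 * x ^ 6 * y ^ 4 + 26 * x ^ 6 * y ^ 2 - 18 * x ^ 6 - 3 * x ^ 5 * y ^ 10 + 4 * x ^ 5 * y ^ 8 -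 5 * x ^ 5 * y ^ 6 + 3 * x ^ 5 * y ^ 4 - 15 * x ^ 5 * y ^ 2 + 26 * x ^ 5 + 15 * x ^ 4 * y ^ 4 - 18 * x ^ 4 * y ^ 2 + 20 * x ^ 4 - x ^ 3 * y ^ 10 + x ^ 3 * y ^ 8 - x ^ 3 * y ^ 6 + 12 * x ^ 3 * y ^ 4 - 10 * x ^ 3 * y ^ 2 + 8 * x ^ 3 + x ^ 2 * y ^ 2 - 2 * x ^ 2 - 3 * x * y ^ 4 + 3 * x * y ^ 2 - 3 * x - y ^ 4 + y ^ 2 - 1) * hE + (-x ^ 29 + 5 * x ^ 28 - 12 * x ^ 27 + 29 * x ^ 26 - 75 * x ^ 25 + 183 * x ^ 24 - 414 * x ^ 23 + 687 * x ^ 22 - 680 * x ^ 21 + 152 * x ^ 20 + 837 * x ^ 19 - 1601 * x ^ 18 + 1183 * x ^ 17 + 220 * x ^ 16 - 1604 * x ^ 15 + 2005 * x ^ 14 - 983 * x ^ 13 - 328 * x ^ 12 + 828 * x ^ 11 - 624 * x ^ 10 + 40 * x ^ 9 + 319 * x ^ 8 - 215 * x ^ 7 + 55 * x ^ 6 + 22 * x ^ 5 - 44 * x ^ 4 + 11 * x ^ 3 + 3 * x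 ^ 2 - 2 * x + 1) * hp)
  have e1 : Point.some _ _ h₂ - (2 : ℤ) • Point.some _ _ h₁ + ((3 : ℕ) : ℤ) • Point.some _ _ h
      = ((Point.some _ _ h + Point.some _ _ h) + Point.some _ _ h)
        - ((Point.some _ _ h₁ + Point.some _ _ h₁) + -Point.some _ _ h₂) := by
    rw [Nat.cast_ofNat]
    abel
  rw [e1, eD, eT, eD₁, eM, eS, sub_self]

end Fermat.Agent.S58.ThmC
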