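import Fermat.Agent.S58.ThmC.Defs
import Fermat.Agent.Lib.Ell.VarChange

/-!
# S58/ThmC : transport of Theorem C along a change of variables over the prime field
-/

set_option autoImplicit false

namespace Fermat.Agent.S58.ThmC

open WeierstrassCurve WeierstrassCurve.Affine Fermat.Agent.Lib.Ell

/-- **Leaf T1a.** same number of points (`vcFun_bijective W₀ C`, `Nat.card_congr`/
`Nat.card_eq_of_bijective`). -/
theorem card_smul {F : Type*} [Field F] (W₀ : WeierstrassCurve F) (C : VariableChange F) :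
    Nat.card (C • W₀).toAffine.Point = Nat.card W₀.toAffine.Point :=
  Nat.card_eq_of_bijective (vcFun W₀ C) (vcFun_bijective W₀ C)

/-- **Leaf T1b.** `RelOn` is invariant under a change of variables whose coefficients are fixed by
`z ↦ z ^ ℓ`.

PROOF. `e := vcEquiv C rfl : (C • W).Point ≃+ W.Point` (`Lib/Ell/VarChange.lean`), with
`e (x, y) = (vcX C x, vcY C x y) = (u² x + r, u³ y + u² s x + t)` (`vcEquiv_some`).
Given `Fr` on `W.Point`, put `Fr' := e.symm ∘ Fr ∘ e` (an `AddMonoidHom`: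
`(e.symm.toAddMonoidHom.comp Fr).comp e.toAddMonoidHom`).
`Fr' (x, y) = (x ^ ℓ, y ^ ℓ)`: it is enough to see `Fr (e (x, y)) = e (x ^ ℓ, y ^ ℓ)`
(`e.symm_apply_eq`); `Fr (e (x,y)) = ((vcX C x) ^ ℓ, (vcY C x y) ^ ℓ)` and
`(vcX C x) ^ ℓ = vcX C (x ^ ℓ)`, `(vcY C x y) ^ ℓ = vcY C (x ^ ℓ) (y ^ ℓ)` by `add_pow_char`,
`mul_pow`, and the hypotheses `hu hr hs ht`; the nonsingularity of `(x ^ ℓ, y ^ ℓ)` on `C • W`
follows from `vc_nonsingular` and the nonsingularity of the image point (which `hFr` provides).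
Apply `h Fr'` at `e.symm P`, apply `e` (`map_add, map_sub, map_zsmul, e.apply_symm_apply`). -/
theorem relOn_of_smul {K : Type} [Field K] [DecidableEq K] (ℓ : ℕ) [Fact ℓ.Prime] [CharP K ℓ]
    (a : ℤ) (W : WeierstrassCurve K) (C : VariableChange K)
    (hu : (C.u : K) ^ ℓ = C.u) (hr : C.r ^ ℓ = C.r) (hs : C.s ^ ℓ = C.s) (ht : C.t ^ ℓ = C.t)
    (h : RelOn ℓ a (C • W)) : RelOn ℓ a W := by
  intro Fr hFr P
  obtain ⟨e, he⟩ : ∃ e : (C • W).toAffine.Point ≃+ W.toAffine.Point, e = vcEquiv C rfl := ⟨_, rfl⟩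
  have hX : ∀ x, (vcX C x) ^ ℓ = vcX C (x ^ ℓ) := by
    intro x
    unfold vcX
    rw [add_pow_char, mul_pow, ← pow_mul, mul_comm 2 ℓ, pow_mul, hu, hr]
  have hY : ∀ x y, (vcY C x y) ^ ℓ = vcY C (x ^ ℓ) (y ^ ℓ) := by
    intro x y
    unfold vcY
    rw [add_pow_char, add_pow_char, mul_pow, mul_pow, mul_pow, ← pow_mul, ← pow_mul,
      mul_comm 3 ℓ, mul_comm 2 ℓ, pow_mul, pow_mul, hu, hs, ht]
  have hFr' : ∀ x y hxy, ∃ h', ((e.symm.toAddMonoidHom.comp Fr).comp e.toAddMonoidHom)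
      (.some x y hxy) = .some (x ^ ℓ) (y ^ ℓ) h' := by
    intro x y hxy
    obtain ⟨h1, e1⟩ := vcEquiv_some (W := W) C rfl x y hxy
    obtain ⟨h2, e2⟩ := hFr _ _ h1
    have h3 : (C • W).toAffine.Nonsingular (x ^ ℓ) (y ^ ℓ) := by
      rw [vc_nonsingular, ← hX, ← hY]
      exact h2
    refine ⟨h3, ?_⟩
    show e.symm (Fr (e (.some x y hxy))) = _
    rw [e.symm_apply_eq]
    obtain ⟨h4, e4⟩ := vcEquiv_some (W := W) C rfl _ _ h3
    rw [he, e1, e2, e4]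
    exact some_congr W _ _ (hX x) (hY x y)
  have key := h _ hFr' (e.symm P)
  have key2 := congrArg e key
  have e5 : ∀ Q, ((e.symm.toAddMonoidHom.comp Fr).comp e.toAddMonoidHom) Q =
      e.symm (Fr (e Q)) := fun _ => rfl
  rw [e5, e5, map_add, map_sub, map_zsmul, map_zsmul, e.apply_symm_apply, e.apply_symm_apply,
    e.apply_symm_apply, map_zero] at key2
  exact key2

/-- **Leaf T1c.** PROOF: `intro K _ _ _ φ`; `CharP K ℓ` by
`charP_of_injective_ringHom φ.injective ℓ`; `(C • W₀).map φ = (C.map φ) • (W₀.map φ)`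
(Mathlib `WeierstrassCurve.map_variableChange`); `relOn_of_smul` with `C.map φ`, whose coefficients
are `φ u, φ r, φ s, φ t`: `(φ z) ^ ℓ = φ (z ^ ℓ) = φ z` by `ZMod.pow_card`; `card_smul`. -/
theorem thmCFor_of_smul {ℓ : ℕ} [Fact ℓ.Prime] (W₀ : WeierstrassCurve (ZMod ℓ))
    (C : VariableChange (ZMod ℓ)) (h : ThmCFor ℓ (C • W₀)) : ThmCFor ℓ W₀ := by
  intro K _ _ _ φ
  haveI : CharP K ℓ := charP_of_injective_ringHom φ.injective ℓ
  have h1 := h K φ
  rw [card_smul, ← map_variableChange] at h1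
  refine relOn_of_smul ℓ _ (W₀.map φ) (C.map φ) ?_ ?_ ?_ ?_ h1
  · show (φ (C.u : ZMod ℓ)) ^ ℓ = φ (C.u : ZMod ℓ)
    rw [← map_pow, ZMod.pow_card]
  · show (φ C.r) ^ ℓ = φ C.r
    rw [← map_pow, ZMod.pow_card]
  · show (φ C.s) ^ ℓ = φ C.s
    rw [← map_pow, ZMod.pow_card]
  · show (φ C.t) ^ ℓ = φ C.t
    rw [← map_pow, ZMod.pow_card]

end Fermat.Agent.S58.ThmC
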