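import Fermat.Agent.S58.ThmC.Generic

/-!
# S58/ThmC : characteristic `2`, `j = 0` : `y² + y = x³ + a₄ x + a₆`

No denominators: `2 (x, y) = (x⁴ + a₄, ...)`.
-/

set_option autoImplicit false

namespace Fermat.Agent.S58.ThmC

open WeierstrassCurve WeierstrassCurve.Affine Polynomial

variable (K : Type) [Field K] [DecidableEq K] [IsAlgClosed K] [CharP K 2]

omit [DecidableEq K] [IsAlgClosed K] in
theorem two0_Δ_ne_zero (a₄ a₆ : K) : (⟨0, 0, 1, a₄, a₆⟩ : WeierstrassCurve K).Δ ≠ 0 := by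
  have : (⟨0, 0, 1, a₄, a₆⟩ : WeierstrassCurve K).IsCharTwoJEqZeroNF := ⟨rfl, rfl⟩
  rw [Δ_of_isCharTwoJEqZeroNF_of_char_two]
  simp

/-- `y² + y = x³ + a₆` : `2 (x, y) = (x⁴, y⁴ + 1) = - Fr² (x, y)`. -/
theorem relOn_two_00 (a₆ : K) (h₆ : a₆ ^ 2 = a₆) :
    RelOn 2 0 (⟨0, 0, 1, 0, a₆⟩ : WeierstrassCurve K) := by
  have hp : (2 : K) = 0 := CharP.cast_eq_zero K 2
  refine relOn_of_generic _ (two0_Δ_ne_zero K 0 a₆) 2 0 1 one_ne_zero fun x y h h₁ h₂ _ => ?_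
  have hE := (equation_iff ..).1 h.1
  simp only [zero_mul, add_zero, one_mul] at hE
  obtain ⟨hD, eD⟩ := dbl_of_tangent _ h (L := x ^ 2) (x₃ := (x ^ 2) ^ 2) (y₃ := (y ^ 2) ^ 2 + 1)
    (by
      simp only
      have e : 2 * y + 0 * x + 1 = 1 := by linear_combination (y) * hp
      rw [e]
      exact one_ne_zero)
    (by (try simp only); linear_combination (x ^ 2 * y - x ^ 2) * hp) (by (try simp only); linear_combination (x) * hp) (by (try simp only); linear_combination (a₆ + x ^ 3 + y ^ 2 - y + 1) * hE + (1) * h₆ + (a₆ * x ^ 3 - a₆ * y + a₆ + x ^ 6 - x ^ 3 * y + 1) * hp)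
  obtain ⟨hN, eN⟩ := neg_of_eq _ h₂ ((y ^ 2) ^ 2 + 1) (by (try simp only); linear_combination (2 * a₆ + 2 * x ^ 3 + 2 * y ^ 2 - 2 * y + 2) * hE + (2) * h₆ + (2 * a₆ * x ^ 3 - 2 * a₆ * y + 2 * a₆ + x ^ 6 - 2 * x ^ 3 * y + x ^ 3 - y + 1) * hp)
  rw [zero_smul, sub_zero, Nat.cast_ofNat, two_zsmul, eD, ← eN, add_neg_cancel]

/-- `y² + y = x³ + x` : `2 (x, y) = (x⁴ + 1, y⁴ + x⁴)`,
`Fr² P + 2 P = (x⁸ + 1, y⁸ + x⁸ + 1) = - 2 Fr P`. -/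
theorem relOn_two_010 : RelOn 2 (-2) (⟨0, 0, 1, 1, 0⟩ : WeierstrassCurve K) := by
  have hp : (2 : K) = 0 := CharP.cast_eq_zero K 2
  refine relOn_of_generic _ (two0_Δ_ne_zero K 1 0) 2 (-2) 1 one_ne_zero fun x y h h₁ h₂ _ => ?_
  have hE := (equation_iff ..).1 h.1
  simp only [zero_mul, add_zero, one_mul] at hE
  obtain ⟨hD, eD⟩ := dbl_of_tangent _ h (L := x ^ 2 + 1) (x₃ := (x ^ 2) ^ 2 + 1)
    (y₃ := (y ^ 2) ^ 2 + (x ^ 2) ^ 2)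
    (by
      simp only
      have e : 2 * y + 0 * x + 1 = 1 := by linear_combination (y) * hp
      rw [e]
      exact one_ne_zero)
    (by (try simp only); linear_combination (x ^ 2 * y - x ^ 2 + y) * hp) (by (try simp only); linear_combination (-x ^ 2 + x) * hp) (by (try simp only); linear_combination (x ^ 3 + x + y ^ 2 - y + 1) * hE + (x ^ 6 + 2 * x ^ 4 - x ^ 3 * y + x ^ 2 - x * y + 1) * hp)
  obtain ⟨hD₁, eD₁⟩ := dbl_of_tangent _ h₁ (L := x ^ 4 + 1) (x₃ := x ^ 8 + 1)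
    (y₃ := y ^ 8 + x ^ 8)
    (by
      simp only
      have e : 2 * y ^ 2 + 0 * x ^ 2 + 1 = 1 := by linear_combination (2) * hE + (x ^ 3 + x - y) * hp
      rw [e]
      exact one_ne_zero)
    (by (try simp only); linear_combination (2 * x ^ 4 + 2) * hE + (x ^ 7 + x ^ 5 - x ^ 4 * y - x ^ 4 + x ^ 3 + x - y) * hp) (by (try simp only); linear_combination (-x ^ 4 + x ^ 2) * hp) (by (try simp only); linear_combination (x ^ 9 + 3 * x ^ 7 + x ^ 6 * y ^ 2 - 3 * x ^ 6 * y + 6 * x ^ 6 + 3 * x ^ 5 + 2 * x ^ 4 * y ^ 2 - 6 * x ^ 4 * y + 12 * x ^ 4 + x ^ 3 * y ^ 4 - 2 * x ^ 3 * y ^ 3 + 3 * x ^ 3 * y ^ 2 - 4 * x ^ 3 * y + 6 * x ^ 3 + x ^ 2 * y ^ 2 - 3 * x ^ 2 * y + 6 * x ^ 2 + x * y ^ 4 - 2 * x * y ^ 3 + 3 * x * y ^ 2 - 4 * x * y + 5 * x + y ^ 6 - y ^ 5 + y ^ 4 - y ^ 3 + y ^ 2 - y + 2) * hE + (x ^ 12 + 2 * x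 ^ 10 - 2 * x ^ 9 * y + 3 * x ^ 9 + 4 * x ^ 8 - 6 * x ^ 7 * y + 9 * x ^ 7 - 5 * x ^ 6 * y + 4 * x ^ 6 - 6 * x ^ 5 * y + 9 * x ^ 5 - 10 * x ^ 4 * y + 6 * x ^ 4 - 5 * x ^ 3 * y + 4 * x ^ 3 - 5 * x ^ 2 * y + 2 * x ^ 2 - 3 * x * y + x - y + 1) * hp)
  obtain ⟨hS, eS⟩ := add_of_line _ h₂ hD
    (by
      intro e
      have : (1 : K) = 0 := by linear_combination -e
      exact one_ne_zero this)
    (L := x ^ 4) (x₃ := x ^ 8 + 1) (y₃ := y ^ 8 + x ^ 8 + 1)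
    (by ring) (by (try simp only); linear_combination (x ^ 4 + 1) * hp) (by (try simp only); linear_combination (x ^ 9 + 3 * x ^ 7 + x ^ 6 * y ^ 2 - 3 * x ^ 6 * y + 6 * x ^ 6 + 3 * x ^ 5 + 2 * x ^ 4 * y ^ 2 - 6 * x ^ 4 * y + 12 * x ^ 4 + x ^ 3 * y ^ 4 - 2 * x ^ 3 * y ^ 3 + 3 * x ^ 3 * y ^ 2 - 4 * x ^ 3 * y + 7 * x ^ 3 + x ^ 2 * y ^ 2 - 3 * x ^ 2 * y + 6 * x ^ 2 + x * y ^ 4 - 2 * x * y ^ 3 + 3 * x * y ^ 2 - 4 * x * y + 6 * x + y ^ 6 - y ^ 5 + y ^ 4 - y ^ 3 + 2 * y ^ 2 - 2 * y + 2) * hE + (x ^ 12 + 2 * x ^ 10 - 2 * x ^ 9 * y + 3 * x ^ 9 + 3 * x ^ 8 - 6 * x ^ 7 * y + 9 * x ^ 7 - 5 * x ^ 6 * y + 5 * x ^ 6 - 6 * x ^ 5 * y + 9 * x ^ 5 - 10 * x ^ 4 * y + 7 * x ^ 4 - 6 * x ^ 3 * y + 4 * x ^ 3 - 5 * x ^ 2 * y + 3 * x ^ 2 - 4 * x * y + x - y + 1) * hp)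
  obtain ⟨hN, eN⟩ := neg_of_eq _ hD₁ (y ^ 8 + x ^ 8 + 1) (by (try simp only); linear_combination (2 * x ^ 9 + 6 * x ^ 7 + 2 * x ^ 6 * y ^ 2 - 6 * x ^ 6 * y + 12 * x ^ 6 + 6 * x ^ 5 + 4 * x ^ 4 * y ^ 2 - 12 * x ^ 4 * y + 24 * x ^ 4 + 2 * x ^ 3 * y ^ 4 - 4 * x ^ 3 * y ^ 3 + 6 * x ^ 3 * y ^ 2 - 8 * x ^ 3 * y + 12 * x ^ 3 + 2 * x ^ 2 * y ^ 2 - 6 * x ^ 2 * y + 12 * x ^ 2 + 2 * x * y ^ 4 - 4 * x * y ^ 3 + 6 * x * y ^ 2 - 8 * x * y + 10 * x + 2 * y ^ 6 - 2 * y ^ 5 + 2 * y ^ 4 - 2 * y ^ 3 + 2 * y ^ 2 - 2 * y + 2) * hE + (x ^ 12 + 4 * x ^ 10 - 4 * x ^ 9 * y + 6 * x ^ 9 + 7 * x ^ 8 - 12 * x ^ 7 * y + 18 * x ^ 7 - 10 * x ^ 6 * y + 9 * x ^ 6 - 12 * x ^ 5 * y + 18 * x ^ 5 - 20 * x ^ 4 * y + 11 * x ^ 4 - 10 * x ^ 3 * y + 7 * x ^ 3 - 10 * x ^ 2 * y + 5 * x ^ 2 - 6 * x * y + x - y + 1) * hp)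
  have e1 : Point.some _ _ h₂ - (-2 : ℤ) • Point.some _ _ h₁ + ((2 : ℕ) : ℤ) • Point.some _ _ h
      = (Point.some _ _ h₂ + (Point.some _ _ h + Point.some _ _ h))
        + (Point.some _ _ h₁ + Point.some _ _ h₁) := by
    rw [Nat.cast_ofNat]
    abel
  rw [e1, eD, eS, eD₁, ← eN, neg_add_cancel]

/-- `y² + y = x³ + x + 1` : `2 (x, y) = (x⁴ + 1, y⁴ + x⁴)`,
`Fr² P + 2 P = (x⁸ + 1, y⁸ + x⁸) = 2 Fr P`. -/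
theorem relOn_two_011 : RelOn 2 2 (⟨0, 0, 1, 1, 1⟩ : WeierstrassCurve K) := by
  have hp : (2 : K) = 0 := CharP.cast_eq_zero K 2
  refine relOn_of_generic _ (two0_Δ_ne_zero K 1 1) 2 2 1 one_ne_zero fun x y h h₁ h₂ _ => ?_
  have hE := (equation_iff ..).1 h.1
  simp only [zero_mul, add_zero, one_mul] at hE
  obtain ⟨hD, eD⟩ := dbl_of_tangent _ h (L := x ^ 2 + 1) (x₃ := (x ^ 2) ^ 2 + 1)
    (y₃ := (y ^ 2) ^ 2 + (x ^ 2) ^ 2)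
    (by
      simp only
      have e : 2 * y + 0 * x + 1 = 1 := by linear_combination (y) * hp
      rw [e]
      exact one_ne_zero)
    (by (try simp only); linear_combination (x ^ 2 * y - x ^ 2 + y) * hp) (by (try simp only); linear_combination (-x ^ 2 + x) * hp) (by (try simp only); linear_combination (x ^ 3 + x + y ^ 2 - y + 2) * hE + (x ^ 6 + 2 * x ^ 4 - x ^ 3 * y + x ^ 3 + x ^ 2 - x * y + x - y + 2) * hp)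
  obtain ⟨hD₁, eD₁⟩ := dbl_of_tangent _ h₁ (L := x ^ 4 + 1) (x₃ := x ^ 8 + 1)
    (y₃ := y ^ 8 + x ^ 8)
    (by
      simp only
      have e : 2 * y ^ 2 + 0 * x ^ 2 + 1 = 1 := by linear_combination (2) * hE + (x ^ 3 + x - y + 1) * hp
      rw [e]
      exact one_ne_zero)
    (by (try simp only); linear_combination (2 * x ^ 4 + 2) * hE + (x ^ 7 + x ^ 5 - x ^ 4 * y + x ^ 3 + x - y + 1) * hp) (by (try simp only); linear_combination (-x ^ 4 + x ^ 2) * hp) (by (try simp only); linear_combination (x ^ 9 + 3 * x ^ 7 + x ^ 6 * y ^ 2 - 3 * x ^ 6 * y + 9 * x ^ 6 + 3 * x ^ 5 + 2 * x ^ 4 * y ^ 2 - 6 * x ^ 4 * y + 18 * x ^ 4 + x ^ 3 * y ^ 4 - 2 * x ^ 3 * y ^ 3 + 5 * x ^ 3 * y ^ 2 - 10 * x ^ 3 * y + 21 * x ^ 3 + x ^ 2 * y ^ 2 - 3 * x ^ 2 * y + 9 * x ^ 2 + x * y ^ 4 - 2 * x * y ^ 3 + 5 * x * y ^ 2 - 10 * x * y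 + 20 * x + y ^ 6 - y ^ 5 + 2 * y ^ 4 - 3 * y ^ 3 + 5 * y ^ 2 - 8 * y + 14) * hE + (x ^ 12 + 2 * x ^ 10 - 2 * x ^ 9 * y + 5 * x ^ 9 + 4 * x ^ 8 - 6 * x ^ 7 * y + 15 * x ^ 7 - 11 * x ^ 6 * y + 16 * x ^ 6 - 6 * x ^ 5 * y + 15 * x ^ 5 - 22 * x ^ 4 * y + 30 * x ^ 4 - 21 * x ^ 3 * y + 22 * x ^ 3 - 11 * x ^ 2 * y + 14 * x ^ 2 - 19 * x * y + 17 * x - 11 * y + 8) * hp)
  obtain ⟨hS, eS⟩ := add_of_line _ h₂ hD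
    (by
      intro e
      have : (1 : K) = 0 := by linear_combination -e
      exact one_ne_zero this)
    (L := x ^ 4) (x₃ := x ^ 8 + 1) (y₃ := y ^ 8 + x ^ 8)
    (by ring) (by (try simp only); linear_combination (x ^ 4 + 1) * hp) (by (try simp only); linear_combination (x ^ 9 + 3 * x ^ 7 + x ^ 6 * y ^ 2 - 3 * x ^ 6 * y + 9 * x ^ 6 + 3 * x ^ 5 + 2 * x ^ 4 * y ^ 2 - 6 * x ^ 4 * y + 18 * x ^ 4 + x ^ 3 * y ^ 4 - 2 * x ^ 3 * y ^ 3 + 5 * x ^ 3 * y ^ 2 - 10 * x ^ 3 * y + 22 * x ^ 3 + x ^ 2 * y ^ 2 - 3 * x ^ 2 * y + 9 * x ^ 2 + x * y ^ 4 - 2 * x * y ^ 3 + 5 * x * y ^ 2 - 10 * x * y + 21 * x + y ^ 6 - y ^ 5 + 2 * y ^ 4 - 3 * y ^ 3 + 6 * y ^ 2 - 9 * y + 15) * hE + (x ^ 12 + 2 * x ^ 10 - 2 * x ^ 9 * y + 5 * x ^ 9 + 3 * x ^ 8 - 6 * x ^ 7 * y + 15 * x ^ 7 - 11 * x ^ 6 * y + 17 * x ^ 6 - 6 * x ^ 5 * y + 15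 * x ^ 5 - 22 * x ^ 4 * y + 31 * x ^ 4 - 22 * x ^ 3 * y + 23 * x ^ 3 - 11 * x ^ 2 * y + 15 * x ^ 2 - 20 * x * y + 18 * x - 12 * y + 8) * hp)
  have e1 : Point.some _ _ h₂ - (2 : ℤ) • Point.some _ _ h₁ + ((2 : ℕ) : ℤ) • Point.some _ _ h
      = (Point.some _ _ h₂ + (Point.some _ _ h + Point.some _ _ h))
        - (Point.some _ _ h₁ + Point.some _ _ h₁) := by
    rw [Nat.cast_ofNat]
    abel
  rw [e1, eD, eS, eD₁, sub_self]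

end Fermat.Agent.S58.ThmC
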