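import Fermat.Agent.S58.ThmC.Generic

/-!
# S58/ThmC : characteristic `2`, `j ≠ 0` : `y² + x y = x³ + a₂ x² + 1`

`2 (x, y) = ((x + 1)⁴ / x², ...)`, and `Fr² P ∓ Fr P = - 2 P` (one addition with slope
`x² + x + 1 + y / x`).
-/

set_option autoImplicit false

namespace Fermat.Agent.S58.ThmC

open WeierstrassCurve WeierstrassCurve.Affine Polynomial

variable (K : Type) [Field K] [DecidableEq K] [IsAlgClosed K] [CharP K 2]

omit [DecidableEq K] [IsAlgClosed K] in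
theorem two1_Δ_ne_zero (a₂ : K) : (⟨1, a₂, 0, 0, 1⟩ : WeierstrassCurve K).Δ ≠ 0 := by
  have : (⟨1, a₂, 0, 0, 1⟩ : WeierstrassCurve K).IsCharTwoJNeZeroNF := ⟨rfl, rfl, rfl⟩
  rw [Δ_of_isCharTwoJNeZeroNF_of_char_two]
  simp

omit [DecidableEq K] [IsAlgClosed K] in
theorem two1_gen {x : K} (hx : eval x (X * (X - C 1) : K[X]) ≠ 0) :
    x ≠ 0 ∧ (x ^ 2) ^ 2 ≠ x ^ 2 := by
  have hp : (2 : K) = 0 := CharP.cast_eq_zero K 2
  rw [eval_mul, eval_X, eval_sub, eval_X, eval_C] at hx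
  refine ⟨left_ne_zero_of_mul hx, fun e => hx ?_⟩
  have : (x * (x - 1)) ^ 2 = 0 := by linear_combination e + (x ^ 2 - x ^ 3) * hp
  exact pow_eq_zero_iff (two_ne_zero) |>.1 this

theorem relOn_two_10 : RelOn 2 (-1) (⟨1, 0, 0, 0, 1⟩ : WeierstrassCurve K) := by
  have hp : (2 : K) = 0 := CharP.cast_eq_zero K 2
  refine relOn_of_generic _ (two1_Δ_ne_zero K 0) 2 (-1) (X * (X - C 1))
    (mul_ne_zero X_ne_zero (X_sub_C_ne_zero 1)) fun x y h h₁ h₂ hg => ?_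
  obtain ⟨hx, hx'⟩ := two1_gen K hg
  have hE := (equation_iff ..).1 h.1
  simp only [zero_mul, add_zero, one_mul] at hE
  obtain ⟨hD, eD⟩ := dbl_of_tangent _ h (L := x + y / x) (x₃ := (x + 1) ^ 4 / x ^ 2)
    (y₃ := (x ^ 2 + x + 1) * (x ^ 3 + x ^ 2 + 1) / x ^ 2 + (x + 1) ^ 4 / x ^ 3 * y)
    (by
      simp only
      have e : 2 * y + 1 * x + 0 = x := by linear_combination (y) * hp
      rw [e]
      exact hx)
    (by simp only; field_simp; linear_combination (2) * hE + (x ^ 2 * y + 1) * hp) (by simp only; field_simp; linear_combination (-1) * hE + (2 * x ^ 3 - x ^ 2 * y + 3 * x ^ 2 + 2 * x) * hp)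
    (by simp only; field_simp; linear_combination (x ^ 6 + 3 * x ^ 5 + x ^ 4 * y + 6 * x ^ 4 + 4 * x ^ 3 * y + 6 * x ^ 3 + 6 * x ^ 2 * y + 3 * x ^ 2 + 4 * x * y + x + y) * hp)
  obtain ⟨hS, eS⟩ := add_of_line _ h₂ h₁ hx' (L := x ^ 2 + x + 1 + y / x)
    (x₃ := (x + 1) ^ 4 / x ^ 2) (y₃ := (x ^ 4 + x ^ 3 + 1) / x + (x + 1) ^ 4 / x ^ 3 * y)
    (by field_simp; linear_combination (-x ^ 3 - x ^ 2 + x * y - y ^ 2) * hE + (x ^ 4 * y + x ^ 3 * y - x ^ 3 - x ^ 2) * hp) (by simp only; field_simp; linear_combination (-1) * hE + (-x ^ 5 - x ^ 4 - x ^ 3 * y - x ^ 2 * y + 2 * x ^ 2 - x * y + 2 * x) * hp)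
    (by simp only; field_simp; linear_combination (x ^ 6 + x ^ 5 - x ^ 4 * y + x ^ 3 * y ^ 2 + x ^ 3) * hE + (-x ^ 7 * y - x ^ 6 * y + 4 * x ^ 6 + 7 * x ^ 5 + 9 * x ^ 4 + 4 * x ^ 3 * y + 9 * x ^ 3 + 6 * x ^ 2 * y + 5 * x ^ 2 + 4 * x * y + x + y) * hp)
  obtain ⟨hN, eN⟩ := neg_of_eq _ hD ((x ^ 4 + x ^ 3 + 1) / x + (x + 1) ^ 4 / x ^ 3 * y)
    (by simp only; field_simp; linear_combination (x ^ 6 + 2 * x ^ 5 + x ^ 4 * y + 3 * x ^ 4 + 4 * x ^ 3 * y + 4 * x ^ 3 + 6 * x ^ 2 * y + 3 * x ^ 2 + 4 * x * y + x + y) * hp)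
  have e1 : Point.some _ _ h₂ - (-1 : ℤ) • Point.some _ _ h₁ + ((2 : ℕ) : ℤ) • Point.some _ _ h
      = (Point.some _ _ h₂ + Point.some _ _ h₁) + (Point.some _ _ h + Point.some _ _ h) := by
    rw [Nat.cast_ofNat]
    abel
  rw [e1, eD, eS, ← eN, neg_add_cancel]

theorem relOn_two_11 : RelOn 2 1 (⟨1, 1, 0, 0, 1⟩ : WeierstrassCurve K) := by
  have hp : (2 : K) = 0 := CharP.cast_eq_zero K 2
  refine relOn_of_generic _ (two1_Δ_ne_zero K 1) 2 1 (X * (X - C 1))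
    (mul_ne_zero X_ne_zero (X_sub_C_ne_zero 1)) fun x y h h₁ h₂ hg => ?_
  obtain ⟨hx, hx'⟩ := two1_gen K hg
  have hE := (equation_iff ..).1 h.1
  simp only [zero_mul, add_zero, one_mul] at hE
  obtain ⟨hD, eD⟩ := dbl_of_tangent _ h (L := x + y / x) (x₃ := (x + 1) ^ 4 / x ^ 2)
    (y₃ := (x ^ 2 + x + 1) * (x ^ 3 + x ^ 2 + 1) / x ^ 2 + (x + 1) ^ 4 / x ^ 3 * y)
    (by
      simp only
      have e : 2 * y + 1 * x + 0 = x := by linear_combination (y) * hp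
      rw [e]
      exact hx)
    (by simp only; field_simp; linear_combination (2) * hE + (x ^ 2 * y + 1) * hp) (by simp only; field_simp; linear_combination (-1) * hE + (2 * x ^ 3 - x ^ 2 * y + 3 * x ^ 2 + 2 * x) * hp)
    (by simp only; field_simp; linear_combination (x ^ 6 + 3 * x ^ 5 + x ^ 4 * y + 6 * x ^ 4 + 4 * x ^ 3 * y + 6 * x ^ 3 + 6 * x ^ 2 * y + 3 * x ^ 2 + 4 * x * y + x + y) * hp)
  obtain ⟨hM, eM⟩ := neg_of_eq _ h₁ (y ^ 2 + x ^ 2) (by simp only; linear_combination (2) * hE + (x ^ 3 + 2 * x ^ 2 - x * y + 1) * hp)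
  obtain ⟨hS, eS⟩ := add_of_line _ h₂ hM hx' (L := x ^ 2 + x + 1 + y / x)
    (x₃ := (x + 1) ^ 4 / x ^ 2) (y₃ := (x ^ 4 + x ^ 3 + 1) / x + (x + 1) ^ 4 / x ^ 3 * y)
    (by field_simp; linear_combination (-x ^ 3 - 2 * x ^ 2 + x * y - y ^ 2) * hE + (-x ^ 5 + x ^ 4 * y - x ^ 4 + 2 * x ^ 3 * y - x ^ 3 - x ^ 2) * hp) (by simp only; field_simp; linear_combination (-1) * hE + (-x ^ 5 - x ^ 4 - x ^ 3 * y - x ^ 2 * y + 2 * x ^ 2 - x * y + 2 * x) * hp)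
    (by simp only; field_simp; linear_combination (x ^ 6 + 2 * x ^ 5 - x ^ 4 * y + x ^ 3 * y ^ 2 + x ^ 3) * hE + (x ^ 8 - x ^ 7 * y + x ^ 7 - 2 * x ^ 6 * y + 4 * x ^ 6 + 8 * x ^ 5 + 9 * x ^ 4 + 4 * x ^ 3 * y + 9 * x ^ 3 + 6 * x ^ 2 * y + 5 * x ^ 2 + 4 * x * y + x + y) * hp)
  obtain ⟨hN, eN⟩ := neg_of_eq _ hD ((x ^ 4 + x ^ 3 + 1) / x + (x + 1) ^ 4 / x ^ 3 * y)
    (by simp only; field_simp; linear_combination (x ^ 6 + 2 * x ^ 5 + x ^ 4 * y + 3 * x ^ 4 + 4 * x ^ 3 * y + 4 * x ^ 3 + 6 * x ^ 2 * y + 3 * x ^ 2 + 4 * x * y + x + y) * hp)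
  have e1 : Point.some _ _ h₂ - (1 : ℤ) • Point.some _ _ h₁ + ((2 : ℕ) : ℤ) • Point.some _ _ h
      = (Point.some _ _ h₂ + -Point.some _ _ h₁) + (Point.some _ _ h + Point.some _ _ h) := by
    rw [Nat.cast_ofNat]
    abel
  rw [e1, eD, eM, eS, ← eN, neg_add_cancel]

end Fermat.Agent.S58.ThmC
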