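import Fermat.Agent.S58.Contracts
import Fermat.Agent.S58.ThmC.Transport
import Fermat.Agent.S58.ThmC.Short
import Fermat.Agent.S58.ThmC.Card
import Fermat.Agent.S58.ThmC.Two0
import Fermat.Agent.S58.ThmC.Two1
import Fermat.Agent.S58.ThmC.ThreeA
import Fermat.Agent.S58.ThmC.ThreeB

/-!
# S58/ThmC : assembly
-/

set_option autoImplicit false

namespace Fermat.Agent.S58.ThmC

open WeierstrassCurve WeierstrassCurve.Affine

/-- an explicit curve: number of points + relation over every algebraically closed field. -/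
theorem thmCFor_mk {ℓ : ℕ} [Fact ℓ.Prime] (W₀ : WeierstrassCurve (ZMod ℓ)) (n : ℕ) (a : ℤ)
    (hn : Nat.card W₀.toAffine.Point = n) (ha : (ℓ : ℤ) + 1 - (n : ℤ) = a)
    (H : ∀ (K : Type) [Field K] [DecidableEq K] [IsAlgClosed K] [CharP K ℓ] (φ : ZMod ℓ →+* K),
      RelOn ℓ a (⟨φ W₀.a₁, φ W₀.a₂, φ W₀.a₃, φ W₀.a₄, φ W₀.a₆⟩ : WeierstrassCurve K)) :
    ThmCFor ℓ W₀ := by
  intro K _ _ _ φ
  haveI : CharP K ℓ := charP_of_injective_ringHom φ.injective ℓ
  rw [hn, ha]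
  exact H K φ

theorem smul_Δ_ne_zero {F : Type*} [Field F] (W : WeierstrassCurve F) (C : VariableChange F)
    (h : W.Δ ≠ 0) : (C • W).Δ ≠ 0 := by
  rw [variableChange_Δ]
  exact mul_ne_zero (pow_ne_zero _ (Units.ne_zero _)) h

theorem thmCFor_two (W₀ : WeierstrassCurve (ZMod 2)) (hΔ : W₀.Δ ≠ 0) : ThmCFor 2 W₀ := by
  obtain ⟨C, hC⟩ := W₀.exists_variableChange_isCharTwoNF
  refine thmCFor_of_smul W₀ C ?_
  have hΔ' := smul_Δ_ne_zero W₀ C hΔ
  generalize C • W₀ = W at hC hΔ'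
  have h01 : ∀ z : ZMod 2, z = 0 ∨ z = 1 := by decide
  cases hC with
  | of_j_ne_zero =>
    rw [W.Δ_of_isCharTwoJNeZeroNF_of_char_two] at hΔ'
    have e1 := W.a₁_of_isCharTwoJNeZeroNF
    have e3 := W.a₃_of_isCharTwoJNeZeroNF
    have e4 := W.a₄_of_isCharTwoJNeZeroNF
    obtain ⟨a₁, a₂, a₃, a₄, a₆⟩ := W
    simp only at e1 e3 e4 hΔ'
    subst e1 e3 e4
    obtain rfl : a₆ = 1 := (h01 a₆).resolve_left hΔ'
    rcases h01 a₂ with rfl | rfl
    · refine thmCFor_mk _ 4 (-1) card_two_10 (by norm_num) fun K _ _ _ _ φ => ?_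
      simp only [map_zero, map_one]
      exact relOn_two_10 K
    · refine thmCFor_mk _ 2 1 card_two_11 (by norm_num) fun K _ _ _ _ φ => ?_
      simp only [map_zero, map_one]
      exact relOn_two_11 K
  | of_j_eq_zero =>
    rw [W.Δ_of_isCharTwoJEqZeroNF_of_char_two] at hΔ'
    have e1 := W.a₁_of_isCharTwoJEqZeroNF
    have e2 := W.a₂_of_isCharTwoJEqZeroNF
    obtain ⟨a₁, a₂, a₃, a₄, a₆⟩ := W
    simp only at e1 e2 hΔ'
    subst e1 e2
    obtain rfl : a₃ = 1 := (h01 a₃).resolve_left (fun h => hΔ' (by rw [h]; rfl))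
    rcases h01 a₄ with rfl | rfl <;> rcases h01 a₆ with rfl | rfl
    · refine thmCFor_mk _ 3 0 card_two_000 (by norm_num) fun K _ _ _ _ φ => ?_
      simp only [map_zero, map_one]
      exact relOn_two_00 K 0 (by simp)
    · refine thmCFor_mk _ 3 0 card_two_001 (by norm_num) fun K _ _ _ _ φ => ?_
      simp only [map_zero, map_one]
      exact relOn_two_00 K 1 (by simp)
    · refine thmCFor_mk _ 5 (-2) card_two_010 (by norm_num) fun K _ _ _ _ φ => ?_
      simp only [map_zero, map_one]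
      exact relOn_two_010 K
    · refine thmCFor_mk _ 1 2 card_two_011 (by norm_num) fun K _ _ _ _ φ => ?_
      simp only [map_zero, map_one]
      exact relOn_two_011 K

theorem thmCFor_three (W₀ : WeierstrassCurve (ZMod 3)) (hΔ : W₀.Δ ≠ 0) : ThmCFor 3 W₀ := by
  obtain ⟨C, hC⟩ := W₀.exists_variableChange_isCharThreeNF
  refine thmCFor_of_smul W₀ C ?_
  have hΔ' := smul_Δ_ne_zero W₀ C hΔ
  generalize C • W₀ = W at hC hΔ'
  have h01 : ∀ z : ZMod 3, z ≠ 0 → z = 1 ∨ z = -1 := by decide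
  cases hC with
  | of_j_ne_zero =>
    rw [W.Δ_of_isCharThreeJNeZeroNF_of_char_three] at hΔ'
    have e1 := W.a₁_of_isCharThreeJNeZeroNF
    have e3 := W.a₃_of_isCharThreeJNeZeroNF
    have e4 := W.a₄_of_isCharThreeJNeZeroNF
    obtain ⟨a₁, a₂, a₃, a₄, a₆⟩ := W
    simp only at e1 e3 e4 hΔ'
    subst e1 e3 e4
    have h2 : a₂ ≠ 0 := by
      rintro rfl
      exact hΔ' (by simp)
    have h6 : a₆ ≠ 0 := by
      rintro rfl
      exact hΔ' (by simp)
    rcases h01 a₂ h2 with rfl | rfl <;> rcases h01 a₆ h6 with rfl | rfl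
    · refine thmCFor_mk _ 6 (-2) card_three_pp (by norm_num) fun K _ _ _ _ φ => ?_
      simp only [map_zero, map_one, map_neg]
      exact relOn_three_pp K
    · refine thmCFor_mk _ 3 1 card_three_pm (by norm_num) fun K _ _ _ _ φ => ?_
      simp only [map_zero, map_one, map_neg]
      exact relOn_three_pm K
    · refine thmCFor_mk _ 5 (-1) card_three_mp (by norm_num) fun K _ _ _ _ φ => ?_
      simp only [map_zero, map_one, map_neg]
      exact relOn_three_mp K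
    · refine thmCFor_mk _ 2 2 card_three_mm (by norm_num) fun K _ _ _ _ φ => ?_
      simp only [map_zero, map_one, map_neg]
      exact relOn_three_mm K
  | of_j_eq_zero => exact thmCFor_short (by norm_num) W hΔ'

theorem thmCFor_all (ℓ : ℕ) [Fact ℓ.Prime] (W₀ : WeierstrassCurve (ZMod ℓ)) (hΔ : W₀.Δ ≠ 0) :
    ThmCFor ℓ W₀ := by
  by_cases h2 : ℓ = 2
  · subst h2
    exact thmCFor_two W₀ hΔ
  by_cases h3 : ℓ = 3
  · subst h3
    exact thmCFor_three W₀ hΔ
  have hp : ℓ.Prime := Fact.out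
  have n2 : (2 : ZMod ℓ) ≠ 0 := by
    intro h
    have h' : ((2 : ℕ) : ZMod ℓ) = 0 := by exact_mod_cast h
    rw [ZMod.natCast_eq_zero_iff] at h'
    exact h2 ((Nat.prime_dvd_prime_iff_eq hp Nat.prime_two).1 h')
  have n3 : (3 : ZMod ℓ) ≠ 0 := by
    intro h
    have h' : ((3 : ℕ) : ZMod ℓ) = 0 := by exact_mod_cast h
    rw [ZMod.natCast_eq_zero_iff] at h'
    exact h3 ((Nat.prime_dvd_prime_iff_eq hp Nat.prime_three).1 h')
  letI : Invertible (2 : ZMod ℓ) := invertibleOfNonzero n2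
  letI : Invertible (3 : ZMod ℓ) := invertibleOfNonzero n3
  obtain ⟨C, hC⟩ := W₀.exists_variableChange_isShortNF
  exact thmCFor_of_smul W₀ C (thmCFor_short h2 _ (smul_Δ_ne_zero W₀ C hΔ))

end Fermat.Agent.S58.ThmC

namespace Fermat.Agent.S58

/-- **Theorem C.** -/
theorem stmtThmC : StmtThmC := fun ℓ _ W₀ hΔ K _ _ _ φ Fr hFr P =>
  ThmC.thmCFor_all ℓ W₀ hΔ K φ Fr hFr P

end Fermat.Agent.S58
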