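import Mathlib

/-!
# S58, block THC : `Fr² - a Fr + ℓ = 0` on `Ē(K)`, all primes `ℓ`, general Weierstrass equations

Common definitions and the two "explicit group law" lemmas used in the verification of the ten
normal forms in characteristic `2` and `3`.
-/

set_option autoImplicit false

namespace Fermat.Agent.S58.ThmC

open WeierstrassCurve WeierstrassCurve.Affine

/-- `Fr² - a Fr + ℓ = 0` on `W(K)`, for every additive `Fr` with `Fr (x, y) = (x ^ ℓ, y ^ ℓ)`. -/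
def RelOn (ℓ : ℕ) (a : ℤ) {K : Type} [Field K] [DecidableEq K] (W : WeierstrassCurve K) : Prop :=
  ∀ Fr : W.toAffine.Point →+ W.toAffine.Point,
    (∀ x y h, ∃ h', Fr (.some x y h) = .some (x ^ ℓ) (y ^ ℓ) h') →
    ∀ P : W.toAffine.Point, Fr (Fr P) - a • Fr P + (ℓ : ℤ) • P = 0

/-- Theorem C for one curve over the prime field. -/
def ThmCFor (ℓ : ℕ) [Fact ℓ.Prime] (W₀ : WeierstrassCurve (ZMod ℓ)) : Prop :=
  ∀ (K : Type) [Field K] [DecidableEq K] [IsAlgClosed K] (φ : ZMod ℓ →+* K),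
    RelOn ℓ ((ℓ : ℤ) + 1 - (Nat.card W₀.toAffine.Point : ℤ)) (W₀.map φ)

section Line

variable {K : Type*} [Field K] [DecidableEq K] (W : WeierstrassCurve K)

/-- explicit addition of two points with distinct `x`-coordinates: `L` is the slope. -/
theorem add_of_line {x₁ y₁ x₂ y₂ : K} (h₁ : W.toAffine.Nonsingular x₁ y₁)
    (h₂ : W.toAffine.Nonsingular x₂ y₂) (hx : x₁ ≠ x₂) (L x₃ y₃ : K)
    (hL : L * (x₁ - x₂) = y₁ - y₂)
    (hx₃ : x₃ = L ^ 2 + W.a₁ * L - W.a₂ - x₁ - x₂)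
    (hy₃ : y₃ = -(L * (x₃ - x₁) + y₁) - W.a₁ * x₃ - W.a₃) :
    ∃ h₃ : W.toAffine.Nonsingular x₃ y₃,
      Point.some x₁ y₁ h₁ + Point.some x₂ y₂ h₂ = Point.some x₃ y₃ h₃ := by
  have hs : W.toAffine.slope x₁ x₂ y₁ y₂ = L := by
    rw [slope_of_X_ne hx, div_eq_iff (sub_ne_zero.2 hx), hL]
  have e1 : W.toAffine.addX x₁ x₂ (W.toAffine.slope x₁ x₂ y₁ y₂) = x₃ := by
    rw [hs, hx₃, addX]
  have e2 : W.toAffine.addY x₁ x₂ y₁ (W.toAffine.slope x₁ x₂ y₁ y₂) = y₃ := by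
    rw [addY, negAddY, e1, hs, hy₃, negY]
  have h := Point.add_of_X_ne (h₁ := h₁) (h₂ := h₂) hx
  have hns := nonsingular_add h₁ h₂ (fun hxy => hx hxy.1)
  subst e1 e2
  exact ⟨hns, h⟩

/-- explicit doubling of a point which is not of order two: `L` is the slope of the tangent. -/
theorem dbl_of_tangent {x₁ y₁ : K} (h₁ : W.toAffine.Nonsingular x₁ y₁)
    (hy : 2 * y₁ + W.a₁ * x₁ + W.a₃ ≠ 0) (L x₃ y₃ : K)
    (hL : L * (2 * y₁ + W.a₁ * x₁ + W.a₃) = 3 * x₁ ^ 2 + 2 * W.a₂ * x₁ + W.a₄ - W.a₁ * y₁)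
    (hx₃ : x₃ = L ^ 2 + W.a₁ * L - W.a₂ - x₁ - x₁)
    (hy₃ : y₃ = -(L * (x₃ - x₁) + y₁) - W.a₁ * x₃ - W.a₃) :
    ∃ h₃ : W.toAffine.Nonsingular x₃ y₃,
      Point.some x₁ y₁ h₁ + Point.some x₁ y₁ h₁ = Point.some x₃ y₃ h₃ := by
  have hne : y₁ ≠ W.toAffine.negY x₁ y₁ := by
    intro h
    apply hy
    rw [negY] at h
    linear_combination h
  have hd : y₁ - W.toAffine.negY x₁ y₁ = 2 * y₁ + W.a₁ * x₁ + W.a₃ := by
    rw [negY]; ring
  have hs : W.toAffine.slope x₁ x₁ y₁ y₁ = L := by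
    rw [slope_of_Y_ne rfl hne, hd, div_eq_iff hy, hL]
  have e1 : W.toAffine.addX x₁ x₁ (W.toAffine.slope x₁ x₁ y₁ y₁) = x₃ := by
    rw [hs, hx₃, addX]
  have e2 : W.toAffine.addY x₁ x₁ y₁ (W.toAffine.slope x₁ x₁ y₁ y₁) = y₃ := by
    rw [addY, negAddY, e1, hs, hy₃, negY]
  have h := Point.add_self_of_Y_ne (h₁ := h₁) hne
  have hns := nonsingular_add h₁ h₁ (fun hxy => hne hxy.2)
  subst e1 e2
  exact ⟨hns, h⟩

omit [DecidableEq K] in
/-- explicit negation. -/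
theorem neg_of_eq {x₁ y₁ : K} (h₁ : W.toAffine.Nonsingular x₁ y₁) (y₂ : K)
    (hy : y₂ = -y₁ - W.a₁ * x₁ - W.a₃) :
    ∃ h₂ : W.toAffine.Nonsingular x₁ y₂, -Point.some x₁ y₁ h₁ = Point.some x₁ y₂ h₂ := by
  subst hy
  exact ⟨(nonsingular_neg ..).2 h₁, Point.neg_some h₁⟩

omit [DecidableEq K] in
/-- two affine points are equal as soon as their coordinates are. -/
theorem some_congr {x₁ y₁ x₂ y₂ : K} (h₁ : W.toAffine.Nonsingular x₁ y₁)
    (h₂ : W.toAffine.Nonsingular x₂ y₂) (hx : x₁ = x₂) (hy : y₁ = y₂) :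
    Point.some x₁ y₁ h₁ = Point.some x₂ y₂ h₂ := by
  subst hx hy
  rfl

end Line

end Fermat.Agent.S58.ThmC
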