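import Fermat.Agent.S58.ThmC.Defs

/-!
# S58/ThmC : it is enough to check the relation at generic points
-/

set_option autoImplicit false

namespace Fermat.Agent.S58.ThmC

open WeierstrassCurve WeierstrassCurve.Affine Polynomial

variable {K : Type} [Field K] [DecidableEq K]

/-- **Leaf G1a.** For every `x` there is a point with this `x`-coordinate: the monic quadratic
`Y² + (a₁ x + a₃) Y - (x³ + a₂ x² + a₄ x + a₆)` has a root (`IsAlgClosed.exists_root`, degree `2`);
`equation_iff`; `equation_iff_nonsingular_of_Δ_ne_zero`. -/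
theorem exists_nonsingular [IsAlgClosed K] (W : WeierstrassCurve K) (hΔ : W.Δ ≠ 0) (x : K) :
    ∃ y, W.toAffine.Nonsingular x y := by
  have hdeg : (C (1 : K) * X ^ 2 + C (W.a₁ * x + W.a₃) * X +
      C (-(x ^ 3 + W.a₂ * x ^ 2 + W.a₄ * x + W.a₆))).degree ≠ 0 := by
    rw [degree_quadratic one_ne_zero]
    decide
  obtain ⟨y, hy⟩ := IsAlgClosed.exists_root _ hdeg
  refine ⟨y, (W.toAffine.equation_iff_nonsingular_of_Δ_ne_zero hΔ).1 ?_⟩
  rw [equation_iff]
  simp only [IsRoot.def, eval_add, eval_mul, eval_C, eval_pow, eval_X] at hy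
  linear_combination hy

/-- **Leaf G1b.** `x ↦ (x, y_x)` is injective and `K` is infinite (`IsAlgClosed.instInfinite`?,
`IsAlgClosed.infinite`). -/
theorem infinite_point [IsAlgClosed K] (W : WeierstrassCurve K) (hΔ : W.Δ ≠ 0) :
    Infinite W.toAffine.Point := by
  have : Infinite K := IsAlgClosed.instInfinite
  refine Infinite.of_injective (fun x : K => Point.some x (exists_nonsingular W hΔ x).choose
    (exists_nonsingular W hΔ x).choose_spec) ?_
  intro x x' h
  simp only [Point.some.injEq] at h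
  exact h.1

/-- **Leaf G1c.** The points whose `x`-coordinate is in a finite set are finite in number:
for given `x` there are at most two `y` (`Y_eq_of_X_eq`: `y₁ = y₂ ∨ y₁ = negY x₂ y₂`).
For instance: the set is contained in `{0} ∪ ⋃ x ∈ S, {P | P = some x ..}`; or choose for each
`x ∈ S` one point `Q x` (if any): the set is contained in
`{0} ∪ Q '' S ∪ (fun x => - Q x) '' S`. -/
theorem finite_of_X_mem (W : WeierstrassCurve K) (S : Set K) (hS : S.Finite) :
    {P : W.toAffine.Point | ∀ x y h, P = .some x y h → x ∈ S}.Finite := by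
  classical
  let Q : K → W.toAffine.Point := fun x =>
    if h : ∃ y, W.toAffine.Nonsingular x y then Point.some x h.choose h.choose_spec else 0
  refine Set.Finite.subset (((Set.finite_singleton (0 : W.toAffine.Point)).union
    (hS.image Q)).union (hS.image fun x => - Q x)) ?_
  intro P hP
  rcases P with _ | ⟨x, y, h⟩
  · exact Or.inl (Or.inl rfl)
  · have hx : x ∈ S := hP x y h rfl
    have hex : ∃ y, W.toAffine.Nonsingular x y := ⟨y, h⟩
    have hQ : Q x = Point.some x hex.choose hex.choose_spec := dif_pos hex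
    rcases Y_eq_of_X_eq h.1 hex.choose_spec.1 rfl with hy | hy
    · refine Or.inl (Or.inr ⟨x, hx, ?_⟩)
      rw [hQ]
      exact some_congr W _ _ rfl hy.symm
    · refine Or.inr ⟨x, hx, ?_⟩
      change - Q x = _
      rw [hQ, Point.neg_some]
      exact some_congr W _ _ rfl hy.symm

/-- **Leaf G1d.** An endomorphism of an infinite group which vanishes outside a finite set is zero:
if `ψ P ≠ 0`, then `Q ↦ P + Q` maps the complement of `T` into `T` injectively
(`ψ (P + Q) = ψ P ≠ 0`), so the complement of `T` is finite, and the group is finite. -/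
theorem eq_zero_of_cofinite {G : Type*} [AddCommGroup G] [Infinite G] (ψ : G →+ G) (T : Set G)
    (hT : T.Finite) (h : ∀ P, P ∉ T → ψ P = 0) (P : G) : ψ P = 0 := by
  by_contra hP
  have h1 : Tᶜ ⊆ (fun Q => P + Q) ⁻¹' T := by
    intro Q hQ
    by_contra hPQ
    have h2 := h (P + Q) hPQ
    rw [map_add, h Q hQ, add_zero] at h2
    exact hP h2
  have h2 : (Tᶜ).Finite :=
    (hT.preimage (Set.injOn_of_injective (add_right_injective P))).subset h1
  have h3 : (Set.univ : Set G).Finite := by
    rw [← Set.union_compl_self T]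
    exact hT.union h2
  exact Set.infinite_univ h3

/-- **Leaf G1.** PROOF: `intro Fr hFr`; `ψ := Fr.comp Fr - a • Fr + (ℓ : ℤ) • AddMonoidHom.id _`;
`T := {P | ∀ x y h, P = some x y h → x ∈ S}`, `S := {x | p.eval x = 0}` (finite:
`p.rootSet_finite`, or `Polynomial.finite_setOf_isRoot hp`); for `P ∉ T`: `P = some x y h` with
`p.eval x ≠ 0`; `hFr` twice, then `H`. -/
theorem relOn_of_generic [IsAlgClosed K] (W : WeierstrassCurve K) (hΔ : W.Δ ≠ 0) (ℓ : ℕ) (a : ℤ)
    (p : K[X]) (hp : p ≠ 0)
    (H : ∀ (x y : K) (h : W.toAffine.Nonsingular x y)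
      (h₁ : W.toAffine.Nonsingular (x ^ ℓ) (y ^ ℓ))
      (h₂ : W.toAffine.Nonsingular ((x ^ ℓ) ^ ℓ) ((y ^ ℓ) ^ ℓ)), p.eval x ≠ 0 →
      Point.some _ _ h₂ - a • Point.some _ _ h₁ + (ℓ : ℤ) • Point.some _ _ h = 0) :
    RelOn ℓ a W := by
  intro Fr hFr P
  have := infinite_point W hΔ
  have hS : {x : K | p.eval x = 0}.Finite := Polynomial.finite_setOf_isRoot hp
  have key := eq_zero_of_cofinite (Fr.comp Fr - a • Fr + (ℓ : ℤ) • AddMonoidHom.id _)
    {P : W.toAffine.Point | ∀ x y h, P = .some x y h → x ∈ {x : K | p.eval x = 0}}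
    (finite_of_X_mem W _ hS) ?_ P
  · simpa using key
  · intro P hP
    simp only [Set.mem_setOf_eq, not_forall] at hP
    obtain ⟨x, y, h, rfl, hx⟩ := hP
    obtain ⟨h₁, e₁⟩ := hFr x y h
    obtain ⟨h₂, e₂⟩ := hFr _ _ h₁
    have := H x y h h₁ h₂ hx
    simp only [AddMonoidHom.add_apply, AddMonoidHom.sub_apply, AddMonoidHom.comp_apply,
      AddMonoidHom.smul_apply, AddMonoidHom.id_apply, e₁, e₂]
    exact this

end Fermat.Agent.S58.ThmC
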